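import Mathlib

/-!
# Linear algebra for the localised Ihara lemma
-/

set_option autoImplicit false
set_option linter.unusedSectionVars false

noncomputable section

namespace Fermat.Agent.IharaM

open Module

section Count

variable {k : Type*} [Field k] {Λ : Type*} [AddCommGroup Λ] [Module k Λ] [Module.Finite k Λ]
  {ι : Type*} [Fintype ι] [DecidableEq ι]

/-- The counting argument: a map `F` onto `k ^ ι` and a map `G` which is injective up to a
nilpotent part. -/
theorem count (S : Λ →ₗ[k] Λ) (F G : Λ →ₗ[k] (ι → k)) (B : Matrix ι ι k)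
    (hF : ∀ v, F (S v) = Matrix.mulVec B.transpose (F v))
    (hG : ∀ v, G (S v) = Matrix.mulVec B (G v)) (hFs : Function.Surjective F)
    (hGi : ∀ v, G v = 0 → S v = 0) {c : k} (hc : c ≠ 0) {v : Λ} (hv : S v = c • v)
    (h0 : F v = 0) : v = 0 := by
  obtain ⟨n, hn1, hn⟩ : ∃ n : ℕ, 1 ≤ n ∧ Disjoint (LinearMap.ker (S ^ n)) (LinearMap.range (S ^ n)) := by
    obtain ⟨n, hn⟩ := Filter.eventually_atTop.mp (Module.End.eventually_disjoint_ker_pow_range_pow (R := k) (M := Λ) S)
    exact ⟨max n 1, le_max_right _ _, hn (max n 1) (le_max_left _ _)⟩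
  have hpow : ∀ j : ℕ, (S ^ j) v = c ^ j • v := by
    intro j
    induction j with
    | zero => rw [pow_zero, pow_zero, one_smul]; rfl
    | succ j ih => rw [pow_succ, Module.End.mul_apply, hv, map_smul, ih, smul_smul, pow_succ']
  have hFn : ∀ (j : ℕ) (u : Λ), F ((S ^ j) u) = Matrix.mulVec (B.transpose ^ j) (F u) := by
    intro j
    induction j with
    | zero => intro u; rw [pow_zero, pow_zero, Matrix.one_mulVec]; rfl
    | succ j ih =>
      intro u
      rw [pow_succ, Module.End.mul_apply, ih, hF, Matrix.mulVec_mulVec, ← pow_succ]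
  have hGn : ∀ (j : ℕ) (u : Λ), G ((S ^ j) u) = Matrix.mulVec (B ^ j) (G u) := by
    intro j
    induction j with
    | zero => intro u; rw [pow_zero, pow_zero, Matrix.one_mulVec]; rfl
    | succ j ih =>
      intro u
      rw [pow_succ, Module.End.mul_apply, ih, hG, Matrix.mulVec_mulVec, ← pow_succ]
  set R := LinearMap.range (S ^ n) with hR
  have hvR : v ∈ R := ⟨(c ^ n)⁻¹ • v, by
    rw [map_smul, hpow, smul_smul, inv_mul_cancel₀ (pow_ne_zero n hc), one_smul]⟩
  -- `G` is injective on `R`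
  have hGR : Function.Injective (G.domRestrict R) := by
    rw [← LinearMap.ker_eq_bot, LinearMap.ker_eq_bot']
    rintro ⟨u, hu⟩ h
    have h1 : S u = 0 := hGi u h
    have h2 : u ∈ LinearMap.ker (S ^ n) := by
      rw [LinearMap.mem_ker]
      obtain ⟨j, rfl⟩ : ∃ j, n = j + 1 := ⟨n - 1, by omega⟩
      rw [pow_succ, Module.End.mul_apply, h1, map_zero]
    have h3 := Submodule.disjoint_def.mp hn u h2 hu
    exact Subtype.ext h3
  have hd1 : finrank k R ≤ (B ^ n).rank := by
    rw [← LinearMap.finrank_range_of_inj hGR, Matrix.rank]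
    apply Submodule.finrank_mono
    rintro _ ⟨⟨_, u, rfl⟩, rfl⟩
    exact ⟨G u, (hGn n u).symm⟩
  have hd2 : (B ^ n).rank ≤ finrank k (LinearMap.range (F.domRestrict R)) := by
    rw [← Matrix.rank_transpose, Matrix.transpose_pow, Matrix.rank]
    apply Submodule.finrank_mono
    rintro _ ⟨x, rfl⟩
    obtain ⟨u, rfl⟩ := hFs x
    exact ⟨⟨(S ^ n) u, ⟨u, rfl⟩⟩, hFn n u⟩
  have hd3 := LinearMap.finrank_range_add_finrank_ker (F.domRestrict R)
  have hker : finrank k (LinearMap.ker (F.domRestrict R)) = 0 := by omega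
  have hker2 : LinearMap.ker (F.domRestrict R) = ⊥ := Submodule.finrank_eq_zero.mp hker
  have h1 : (⟨v, hvR⟩ : R) ∈ LinearMap.ker (F.domRestrict R) := by
    rw [LinearMap.mem_ker]
    exact h0
  rw [hker2, Submodule.mem_bot] at h1
  exact congrArg Subtype.val h1

end Count

section Artin

variable {A : Type*} [CommRing A] (P : Ideal A) {Q : Type*} [AddCommGroup Q] [Module A Q]

/-- An Artinian and Noetherian module without elements killed by `P` vanishes at `P`. -/
theorem exists_smul_eq_zero [IsArtinian A Q] [IsNoetherian A Q]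
    (h : ∀ x : Q, (∀ a ∈ P, a • x = 0) → x = 0) : ∃ s : A, s - 1 ∈ P ∧ ∀ x : Q, s • x = 0 := by
  classical
  obtain ⟨n, hn⟩ := IsArtinian.monotone_stabilizes (R := A) (M := Q)
    (⟨fun j => OrderDual.toDual (P ^ j • (⊤ : Submodule A Q)), fun i j hij =>
      Submodule.smul_mono_left (Ideal.pow_le_pow_right hij)⟩ : ℕ →o (Submodule A Q)ᵒᵈ)
  have hn1 : P ^ n • (⊤ : Submodule A Q) = P ^ (n + 1) • (⊤ : Submodule A Q) :=
    hn (n + 1) (Nat.le_succ n)
  obtain ⟨s, hs, hs0⟩ := Submodule.exists_sub_one_mem_and_smul_eq_zero_of_fg_of_le_smul P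
    (P ^ n • (⊤ : Submodule A Q)) (IsNoetherian.noetherian _) (by
      conv_lhs => rw [hn1, pow_succ', Submodule.mul_smul])
  refine ⟨s, hs, ?_⟩
  by_contra hne
  push Not at hne
  obtain ⟨x₀, hx₀⟩ := hne
  -- the chain `P ^ j • (s x₀)`
  have hex : ∃ j, ∀ a ∈ P ^ j, a • (s • x₀) = 0 := ⟨n, fun a ha => by
    rw [smul_comm]
    exact hs0 _ (Submodule.smul_mem_smul ha Submodule.mem_top)⟩
  obtain ⟨j, hspec, hmin⟩ : ∃ j, (∀ a ∈ P ^ j, a • (s • x₀) = 0) ∧
      ∀ m < j, ¬ ∀ a ∈ P ^ m, a • (s • x₀) = 0 :=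
    ⟨Nat.find hex, Nat.find_spec hex, fun m hm => Nat.find_min hex hm⟩
  have hj : j ≠ 0 := by
    intro h0
    rw [h0] at hspec
    apply hx₀
    have := hspec 1 (by rw [pow_zero, Ideal.one_eq_top]; exact Submodule.mem_top)
    rwa [one_smul] at this
  obtain ⟨i, hi⟩ : ∃ i, j = i + 1 := ⟨j - 1, by omega⟩
  have h1 := hmin i (by omega)
  push Not at h1
  obtain ⟨a, ha, hane⟩ := h1
  apply hane
  apply h
  intro b hb
  rw [← mul_smul]
  apply hspec
  rw [hi, pow_succ']
  exact Ideal.mul_mem_mul hb ha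

end Artin

section Functional

variable {O k : Type*} [CommRing O] [Field k] [Algebra O k]
  (hsurj : Function.Surjective (algebraMap O k)) {Q : Type*} [AddCommGroup Q] [Module O Q]

include hsurj in
/-- A nonzero module over the residue field has a nonzero functional. -/
theorem exists_functional (hQ : ∀ a : O, algebraMap O k a = 0 → ∀ x : Q, a • x = 0) {v : Q}
    (hv : v ≠ 0) : ∃ f : Q →ₗ[O] k, f v ≠ 0 := by
  letI : SMul k Q := ⟨fun c x => (Function.surjInv hsurj c) • x⟩
  have hsmul : ∀ (a : O) (x : Q), algebraMap O k a • x = a • x := by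
    intro a x
    change Function.surjInv hsurj (algebraMap O k a) • x = a • x
    rw [← sub_eq_zero, ← sub_smul]
    apply hQ
    rw [map_sub, Function.surjInv_eq hsurj, sub_self]
  letI : Module k Q := Function.Surjective.moduleLeft (algebraMap O k) hsurj hsmul
  haveI : IsScalarTower O k Q := ⟨fun a c x => by
    rw [Algebra.smul_def, mul_smul, hsmul]⟩
  by_contra hne
  push Not at hne
  apply hv
  rw [← Module.forall_dual_apply_eq_zero_iff k]
  intro f
  exact hne (f.restrictScalars O)

end Functional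

end Fermat.Agent.IharaM
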