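import Fermat.Agent.IharaM.Surj

/-!
# Functionals on `Hom(Γ₀(N), O)` killing the image of the duality map
-/

set_option autoImplicit false
set_option linter.unusedSectionVars false

namespace Fermat.Agent.IharaM

open Matrix CongruenceSubgroup
open scoped MatrixGroups
open Fermat.Agent.LR
open Fermat.Agent.HeckeHom ModularCurve.Period

noncomputable section

variable {O : Type*} [CommRing O] [IsDomain O] [CharZero O]
variable {k : Type*} [Field k] [Algebra O k]

abbrev HomO (N : ℕ) (O : Type*) [CommRing O] := Additive (Gamma0 N) →+ O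

/-- the dual family -/
def tauF (O : Type*) [CommRing O] {N : ℕ} {ι : Type*} (b : Module.Basis ι ℤ (LL (Gamma0 N))) (i : ι) :
    Additive (Gamma0 N) →+ O :=
  th (hat ((Int.castAddHom O).comp (b.coord i).toAddMonoidHom))

theorem T_tauF {N ℓ : ℕ} (hℓ : ℓ.Prime) (hℓN' : ¬ ℓ ∣ N) {ι : Type*} [Fintype ι] [DecidableEq ι]
    (b : Module.Basis ι ℤ (LL (Gamma0 N))) (M : Matrix ι ι ℤ)
    (hM : ∀ j, TL hℓ hℓN' (b j) = ∑ i, M i j • b i) (j : ι) :
    (dataT hℓ hℓN').hom O (tauF O b j) = ∑ i, (M j i : O) • tauF O b i := by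
  have h1 : (dataT hℓ hℓN').hom O (tauF O b j) =
      th (ToM hℓ hℓN' (hat ((Int.castAddHom O).comp (b.coord j).toAddMonoidHom))) :=
    hom_thL hℓ hℓN' _
  rw [h1, ← hat_comp_TL, th_hat_sum b]
  refine Finset.sum_congr rfl fun i _ => ?_
  congr 1
  change ((b.coord j (TL hℓ hℓN' (b i)) : ℤ) : O) = _
  rw [hM, map_sum]
  congr 1
  rw [Finset.sum_eq_single j]
  · rw [map_smul, Module.Basis.coord_apply, Module.Basis.repr_self, Finsupp.single_eq_same,
      smul_eq_mul, mul_one]
  · intro i' _ hi'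
    rw [map_smul, Module.Basis.coord_apply, Module.Basis.repr_self,
      Finsupp.single_eq_of_ne (Ne.symm hi'), smul_zero]
  · intro h
    exact absurd (Finset.mem_univ _) h

theorem T_pdHom {N ℓ : ℕ} (hℓ : ℓ.Prime) (hℓN' : ¬ ℓ ∣ N) {ι : Type*} [Fintype ι] [DecidableEq ι]
    (b : Module.Basis ι ℤ (LL (Gamma0 N))) (M : Matrix ι ι ℤ)
    (hM : ∀ j, TL hℓ hℓN' (b j) = ∑ i, M i j • b i) (j : ι) :
    (dataT hℓ hℓN').hom O (pdHom O (b j)) = ∑ i, (M i j : O) • pdHom O (b i) := by
  rw [pdHom_TL, hM]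
  refine AddMonoidHom.ext fun γ => ?_
  rw [AddMonoidHom.finsetSum_apply]
  change ((pd (Additive.toMul γ) (∑ i, M i j • b i) : ℤ) : O) = _
  rw [map_sum, Int.cast_sum]
  refine Finset.sum_congr rfl fun i _ => ?_
  rw [map_zsmul, smul_eq_mul, Int.cast_mul]
  rfl

/-- the Hecke operator as a linear map -/
def TLin (O : Type*) [CommRing O] {N ℓ : ℕ} (hℓ : ℓ.Prime) (hℓN' : ¬ ℓ ∣ N) :
    (Additive (Gamma0 N) →+ O) →ₗ[O] (Additive (Gamma0 N) →+ O) where
  toFun := (dataT hℓ hℓN').hom O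
  map_add' f g := map_add _ f g
  map_smul' c f := HData.hom_smul _ c f

theorem functional_smul {N : Type*} [AddCommGroup N] [Module O N] (g : N →ₗ[O] k) (m : ℤ) (D : N) :
    g ((m : O) • D) = (m : k) * g D := by
  rw [map_smul, Algebra.smul_def, map_intCast]

/-- the shifted transpose of the Hecke operator -/
def Sop {N : Type*} [AddCommGroup N] [Module O N] (T : N →ₗ[O] N) (c : k) :
    (N →ₗ[O] k) →ₗ[k] (N →ₗ[O] k) where
  toFun g := g.comp T - c • g
  map_add' g g' := by
    ext D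
    simp only [LinearMap.add_comp, LinearMap.sub_apply, LinearMap.add_apply,
      LinearMap.smul_apply, smul_eq_mul, smul_add]
    ring
  map_smul' c' g := by
    ext D
    simp only [LinearMap.smul_comp, LinearMap.sub_apply, LinearMap.smul_apply, smul_eq_mul,
      RingHom.id_apply]
    ring

theorem Sop_apply {N : Type*} [AddCommGroup N] [Module O N] (T : N →ₗ[O] N) (c : k)
    (g : N →ₗ[O] k) (D : N) : Sop T c g D = g (T D) - c * g D := rfl

/-- evaluation at a family -/
def evF (k : Type*) [Field k] [Algebra O k] {N : Type*} [AddCommGroup N] [Module O N] {ι : Type*}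
    (w : ι → N) : (N →ₗ[O] k) →ₗ[k] (ι → k) where
  toFun g i := g (w i)
  map_add' _ _ := rfl
  map_smul' _ _ := rfl

theorem evF_Sop {N : Type*} [AddCommGroup N] [Module O N] {ι : Type*} [Fintype ι] [DecidableEq ι]
    (T : N →ₗ[O] N) (c : k) (w : ι → N) (M : Matrix ι ι ℤ)
    (hM : ∀ j, T (w j) = ∑ i, (M i j : O) • w i) (g : N →ₗ[O] k) :
    evF k w (Sop T c g) = Matrix.mulVec (M.map (Int.cast : ℤ → k) - c • 1).transpose (evF k w g) := by
  funext j
  change g (T (w j)) - c * g (w j) = _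
  rw [hM, map_sum, Matrix.transpose_sub, Matrix.sub_mulVec, Pi.sub_apply, Matrix.transpose_smul,
    Matrix.transpose_one, Matrix.smul_mulVec, Matrix.one_mulVec]
  congr 1
  rw [Matrix.mulVec, dotProduct]
  refine Finset.sum_congr rfl fun i _ => ?_
  rw [functional_smul]
  rfl

/-- **Functionals killing the image of the duality map are Eisenstein.** -/
theorem eq_zero_of_pdHom [IsNoetherianRing O] {p : ℕ} (hp : p.Prime) (hp2 : p ≠ 2)
    (hk : (p : k) = 0) {N : ℕ} (hN : 0 < N) {ℓ : ℕ} (hℓ : ℓ.Prime) (hℓN' : ¬ ℓ ∣ N)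
    (hℓN : (N : ℤ) ∣ (ℓ : ℤ) - 1) {a : k} (ha : a ≠ 1 + ℓ)
    (f : (Additive (Gamma0 N) →+ O) →ₗ[O] k)
    (hT : ∀ D, f ((dataT hℓ hℓN').hom O D) = a * f D)
    (h0 : ∀ d : LL (Gamma0 N), f (pdHom O d) = 0) : f = 0 := by
  classical
  have : NeZero N := ⟨hN.ne'⟩
  have hfinL := finite_quot hN
  have hfin1 : Module.Finite O (Additive (Gamma0 N) →+ O) := finite_hom _ _
  have hfin2 : Module.Finite k ((Additive (Gamma0 N) →+ O) →ₗ[O] k) := finite_functionals _ _ _
  have hfree : Module.Free ℤ (LL (Gamma0 N)) := inferInstance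
  obtain ⟨n, b⟩ : ∃ n, Nonempty (Module.Basis (Fin n) ℤ (LL (Gamma0 N))) :=
    ⟨_, ⟨Module.finBasis ℤ (LL (Gamma0 N))⟩⟩
  obtain ⟨b⟩ := b
  obtain ⟨M, hM⟩ : ∃ M : Matrix (Fin n) (Fin n) ℤ, ∀ j, TL hℓ hℓN' (b j) = ∑ i, M i j • b i := by
    refine ⟨LinearMap.toMatrix b b (TL hℓ hℓN'), fun j => ?_⟩
    rw [← b.sum_repr (TL hℓ hℓN' (b j))]
    refine Finset.sum_congr rfl fun i _ => ?_
    rw [LinearMap.toMatrix_apply]
  refine count (Sop (TLin O hℓ hℓN') (1 + (ℓ : k))) (evF k fun i => pdHom O (b i))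
    (evF k (tauF O b)) (M.map (Int.cast : ℤ → k) - (1 + (ℓ : k)) • 1) ?_ ?_ ?_ ?_
    (c := a - (1 + ℓ)) (sub_ne_zero.mpr ha) ?_ ?_
  · exact evF_Sop (TLin O hℓ hℓN') (1 + (ℓ : k)) _ M (T_pdHom hℓ hℓN' b M hM)
  · intro g
    have h := evF_Sop (TLin O hℓ hℓN') (1 + (ℓ : k)) _ M.transpose (T_tauF hℓ hℓN' b M hM) g
    rw [h]
    congr 1
    rw [Matrix.transpose_sub, Matrix.transpose_smul, Matrix.transpose_one]
    rfl
  · -- surjectivity
    rw [← LinearMap.range_eq_top]
    by_contra hne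
    obtain ⟨φ, hφ, hle⟩ := Submodule.exists_le_ker_of_lt_top _ (lt_top_iff_ne_top.mpr hne)
    apply hφ
    have h1 := pd_independent hN hp hp2 hk b (fun i => φ (Pi.single i 1)) (by
      intro γ
      let e : (Additive (Gamma0 N) →+ O) →ₗ[O] k :=
        { toFun := fun D => algebraMap O k (D (Additive.ofMul γ))
          map_add' := fun D D' => by rw [AddMonoidHom.add_apply, map_add]
          map_smul' := fun c D => by
            change algebraMap O k (c * D _) = _
            rw [map_mul, RingHom.id_apply, Algebra.smul_def] }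
      have h2 : φ (evF k (fun i => pdHom O (b i)) e) = 0 := by
        have := hle (LinearMap.mem_range_self (evF k fun i => pdHom O (b i)) e)
        rwa [LinearMap.mem_ker] at this
      rw [← h2]
      conv_rhs => rw [pi_eq_sum_univ' (evF k (fun i => pdHom O (b i)) e)]
      rw [map_sum]
      refine Finset.sum_congr rfl fun i _ => ?_
      rw [map_smul, smul_eq_mul, mul_comm]
      congr 1
      · change _ = algebraMap O k (pdHom O (b i) (Additive.ofMul γ))
        change _ = algebraMap O k ((pd γ (b i) : ℤ) : O)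
        rw [map_intCast]
      )
    refine LinearMap.pi_ext' fun i => ?_
    ext
    have := congrFun h1 i
    simpa using this
  · -- injectivity
    intro g hg
    ext D
    rw [Sop_apply]
    obtain ⟨x, hx⟩ := exists_th_eq hN hℓ hℓN' hℓN D
    have h1 : g (TLin O hℓ hℓN' D) - (1 + (ℓ : k)) * g D = g (th (hat x)) := by
      rw [hx, map_sub, map_smul, Algebra.smul_def, map_add, map_one, map_natCast]
      rfl
    rw [h1, th_hat_sum b, map_sum]
    rw [LinearMap.zero_apply]
    refine Finset.sum_eq_zero fun i _ => ?_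
    have := congrFun hg i
    change g (tauF O b i) = 0 at this
    rw [map_smul]
    change _ • g (tauF O b i) = 0
    rw [this, smul_zero]
  · ext D
    rw [Sop_apply]
    change f ((dataT hℓ hℓN').hom O D) - (1 + (ℓ : k)) * f D = (a - (1 + ℓ)) * f D
    rw [hT]
    ring
  · funext i
    exact h0 (b i)

end

end Fermat.Agent.IharaM
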