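import Fermat.Agent.IharaM.PDAdj
import Fermat.Agent.TWDeg.Stg

/-!
# The twisted cohomology groups for the trivial representation
-/

set_option autoImplicit false
set_option linter.unusedSectionVars false

namespace Fermat.Agent.IharaM

open Matrix CongruenceSubgroup
open scoped MatrixGroups
open Fermat.Agent.LR
open Fermat.Agent.HeckeHom
open Fermat.Agent.TW Fermat.Agent.TWDeg

noncomputable section

section Triv

variable {O : Type} [CommRing O] {𝒢 Γ Γ' : Type} [Group 𝒢] [Group Γ] [Group Γ']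
  {ι : Γ →* 𝒢} {ι' : Γ' →* 𝒢} {rho : Representation O 𝒢 O} (hrho : ∀ g, rho g = 1)

/-- crossed homomorphisms for the trivial action -/
def z2h : Z1 ι rho →ₗ[O] (Additive Γ →+ O) where
  toFun f :=
    { toFun := fun γ => f.1 (Additive.toMul γ)
      map_zero' := Z1.one f
      map_add' := fun a b => by
        change f.1 (Additive.toMul a * Additive.toMul b) = _
        rw [Z1.mul, hrho]
        rfl }
  map_add' _ _ := rfl
  map_smul' _ _ := rfl

/-- homomorphisms are crossed homomorphisms -/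
def h2z : (Additive Γ →+ O) →ₗ[O] Z1 ι rho where
  toFun D := ⟨fun γ => D (Additive.ofMul γ), fun g h => by
    rw [hrho]
    exact map_add D (Additive.ofMul g) (Additive.ofMul h)⟩
  map_add' _ _ := rfl
  map_smul' _ _ := rfl

/-- classes are homomorphisms -/
def toHom : H1 ι rho →ₗ[O] (Additive Γ →+ O) :=
  (B1 ι rho).liftQ (z2h hrho) (by
    rintro _ ⟨v, rfl⟩
    rw [LinearMap.mem_ker]
    refine AddMonoidHom.ext fun γ => ?_
    change rho (ι (Additive.toMul γ)) v - v = 0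
    rw [hrho]
    exact sub_self v)

/-- homomorphisms give classes -/
def ofHom : (Additive Γ →+ O) →ₗ[O] H1 ι rho := H1.mk ι rho ∘ₗ h2z hrho

theorem toHom_mk (f : Z1 ι rho) (γ : Γ) :
    toHom hrho (H1.mk ι rho f) (Additive.ofMul γ) = f.1 γ := rfl

theorem toHom_ofHom (D : Additive Γ →+ O) : toHom (ι := ι) hrho (ofHom hrho D) = D := rfl

theorem ofHom_toHom (x : H1 ι rho) : ofHom hrho (toHom hrho x) = x := by
  obtain ⟨f, rfl⟩ := H1.mk_surjective x
  rfl

theorem toHom_injective : Function.Injective (toHom (ι := ι) hrho) := fun x y h => by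
  rw [← ofHom_toHom hrho x, h, ofHom_toHom]

theorem ofHom_surjective : Function.Surjective (ofHom (ι := ι) hrho) := fun x =>
  ⟨_, ofHom_toHom hrho x⟩

theorem toHom_map (D : Corr ι ι') (x : H1 ι rho) (γ : Γ') :
    toHom hrho (D.map rho x) (Additive.ofMul γ) =
      ∑ i : D.X, toHom hrho x (Additive.ofMul (D.coc γ i)) := by
  obtain ⟨f, rfl⟩ := H1.mk_surjective x
  rw [Corr.map_mk, toHom_mk, Corr.zmap_apply]
  refine Finset.sum_congr rfl fun i _ => ?_
  rw [hrho]
  rfl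

end Triv

/-! ### matrices -/

theorem spec_of_toGp {M : ℕ} {A B : TW.M2Z} {g h : SL(2, ℤ)} (hA : IsGd M A) (hB : IsGd M B)
    (H : toGp M A hA * iM M g = iM M h * toGp M B hB) : A * (g : TW.M2Z) = (h : TW.M2Z) * B := by
  rw [← toGp_SL, ← toGp_SL, ← toGp_mul, ← toGp_mul] at H
  exact toGp_inj H

variable {m n q M : ℕ} {O : Type} [CommRing O] {rho : Representation O (Gp M) O}
  (hrho : ∀ g, rho g = 1)

theorem IM_eq {A B : IM} (h : A.1 = B.1) : A = B := Subtype.ext h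

/-- the Hecke operators agree -/
theorem toHom_T (hn : n ∣ m) (hM : M ∣ m) (l : Pr m) (hl : ¬ (l : ℕ) ∣ n)
    (x : (Stg.gamma0 n hn hM).H rho) :
    toHom hrho ((Stg.gamma0 n hn hM).T rho l x) =
      (dataT l.2.1 hl).hom O (toHom hrho x) := by
  refine AddMonoidHom.ext fun γ => ?_
  obtain ⟨γ, rfl⟩ := Additive.ofMul.surjective γ
  have : NeZero (l : ℕ) := ⟨l.2.1.ne_zero⟩
  refine (toHom_map hrho ((Stg.gamma0 n hn hM).corrT l) x γ).trans ?_
  rw [HData.hom_apply]
  refine Fintype.sum_equiv (Equiv.refl (OnePoint (ZMod (l : ℕ)))) _ _ fun y => ?_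
  congr 2
  refine (eq_of_spec_IM (dataT l.2.1 hl) (tr l) (dataT_α l.2.1 hl) (γ := γ) (x := y)
    (y := ((Stg.gamma0 n hn hM).corrT l).actFun γ y) ?_).2
  have h1 := ((Stg.gamma0 n hn hM).corrT l).spec γ y
  have h2 : ∀ z : OnePoint (ZMod (l : ℕ)), (tr l z).1 = bI l z := by
    intro z
    induction z using OnePoint.rec with
    | infty => rfl
    | coe z => rfl
  apply IM_eq
  have h3 := spec_of_toGp (M := M) (g := (γ : SL(2, ℤ)))
    (h := ((((Stg.gamma0 n hn hM).corrT l).coc γ y : Gamma0 n) : SL(2, ℤ)))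
    (isGd_bI l.2.1 (l.coprime hM) y) (isGd_bI l.2.1 (l.coprime hM) _) h1
  exact (congrArg (· * ((γ : SL(2, ℤ)) : TW.M2Z)) (h2 y)).trans (h3.trans
    (congrArg ((((((Stg.gamma0 n hn hM).corrT l).coc γ y : Gamma0 n) : SL(2, ℤ)) : TW.M2Z) * ·)
      (h2 _).symm))

/-- restriction -/
theorem toHom_cI (x : H1 ((Lvl.gamma0 n).ι M) rho) (γ : Gamma0 (n * q)) :
    toHom hrho ((cI n q M).map rho x) (Additive.ofMul γ) =
      toHom hrho x (Additive.ofMul ⟨γ.1, Gamma0_mul_le n q γ.2⟩) := by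
  refine (toHom_map hrho (cI n q M) x γ).trans ?_
  have h1 : ∀ y, (cI n q M).coc γ y = ⟨γ.1, Gamma0_mul_le n q γ.2⟩ := by
    intro y
    have h2 := spec_of_toGp (M := M) (g := (γ : SL(2, ℤ)))
      (h := (((cI n q M).coc γ y : Gamma0 n) : SL(2, ℤ))) (isGd_one M Matrix.det_one)
      (isGd_one M Matrix.det_one) ((cI n q M).spec γ y)
    rw [one_mul, mul_one] at h2
    exact Subtype.ext (Subtype.ext h2.symm)
  rw [Finset.sum_congr rfl fun y _ => by rw [h1 y]]
  exact Fintype.sum_unique (ι := Unit) _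

/-- Atkin-Lehner -/
theorem toHom_cW (hq : q.Prime) (h : q.Coprime n) (hqM : q.Coprime M)
    (x : H1 ((Lvl.gamma0 (n * q)).ι M) rho) (γ γ' : Gamma0 (n * q))
    (hγ : wI q n * (γ : SL(2, ℤ)).1 = (γ' : SL(2, ℤ)).1 * wI q n) :
    toHom hrho ((cW hq h hqM).map rho x) (Additive.ofMul γ) =
      toHom hrho x (Additive.ofMul γ') := by
  refine (toHom_map hrho (cW hq h hqM) x γ).trans ?_
  have h1 : ∀ y, (cW hq h hqM).coc γ y = γ' := by
    intro y
    have h2 := spec_of_toGp (M := M) (g := (γ : SL(2, ℤ)))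
      (h := (((cW hq h hqM).coc γ y : Gamma0 (n * q)) : SL(2, ℤ)))
      (isGd_prime hq hqM (det_wI h)) (isGd_prime hq hqM (det_wI h)) ((cW hq h hqM).spec γ y)
    apply Subtype.ext
    apply Subtype.ext
    apply mul_right_cancel_det (C := wI q n)
    · rw [det_wI h]
      exact_mod_cast hq.ne_zero
    · rw [← hγ]
      exact h2.symm
  rw [Finset.sum_congr rfl fun y _ => by rw [h1 y]]
  exact Fintype.sum_unique (ι := Unit) _

/-! ### the trace -/

/-- the trace representatives as integral matrices with nonzero determinant -/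
def rIM (h : q.Coprime n) (x : OnePoint (ZMod q)) : IM :=
  ⟨rI q n x, by
    change (rI q n x).det ≠ 0
    rw [det_rI h]
    exact one_ne_zero⟩

theorem isReps_rIM (hq : q.Prime) (h : q.Coprime n) :
    IsReps (Gamma0 (n * q)) (GG (Gamma0 n)) (rIM h) where
  mem γ hγ x := by
    obtain ⟨g, hg⟩ := exists_gamma0 (N := n) (A := γ.1 * rI q n x)
      (by rw [Matrix.det_mul, det_rI h, γ.2, mul_one]) (by
        rw [Matrix.mul_apply, Fin.sum_univ_two]
        exact dvd_add (Dvd.dvd.mul_right (mem_Gamma0.mp (Gamma0_mul_le n q hγ)) _)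
          (Dvd.dvd.mul_left (rI10 x) _))
    exact ⟨g.1, g.2, IM_eq hg⟩
  ex := by
    rintro _ ⟨g, hg, rfl⟩
    obtain ⟨y, g', hy⟩ := exists_rI hq h (A := g.1) g.2 (mem_Gamma0.mp hg)
    exact ⟨y, g'.1, g'.2, IM_eq hy⟩
  uniq x y γ hγ hxy := by
    refine uniq_rI hq h (B := γ.1) ?_ (congrArg Subtype.val hxy)
    have := mem_Gamma0.mp hγ
    exact dvd_trans (by push_cast; exact Dvd.intro_left _ rfl) this

/-- the trace of the duality homomorphisms -/
theorem cJ_pdHom (hq : q.Prime) (h : q.Coprime n) (z : LL (Gamma0 (n * q))) :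
    toHom hrho ((cJ hq h M).map rho (ofHom hrho (pdHom O z))) = pdHom O (ALD.rL n q z) := by
  have : Fact q.Prime := ⟨hq⟩
  refine AddMonoidHom.ext fun γ => ?_
  obtain ⟨γ, rfl⟩ := Additive.ofMul.surjective γ
  rw [toHom_map, toHom_ofHom]
  change ∑ i, ((pd ((cJ hq h M).coc γ i) z : ℤ) : O) = ((pd γ (ALD.rL n q z) : ℤ) : O)
  rw [← Int.cast_sum]
  congr 1
  have h1 := pd_rL (isReps_rIM hq h) (γ := γ) ((cJ hq h M).perm γ)
    (fun x => (cJ hq h M).coc γ x) (fun x => ?_) z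
  · rw [← h1]
    exact Fintype.sum_equiv (Equiv.refl (OnePoint (ZMod q))) _ _ fun y => rfl
  · apply IM_eq
    exact spec_of_toGp (M := M) (g := (γ : SL(2, ℤ)))
      (h := (((cJ hq h M).coc γ x : Gamma0 (n * q)) : SL(2, ℤ)))
      (isGd_one M (det_rI h x)) (isGd_one M (det_rI h _)) ((cJ hq h M).spec γ x)

/-! ### the Atkin-Lehner operator -/

/-- the Atkin-Lehner matrix -/
def wA (hq : q.Prime) (h : q.Coprime n) : ALD n q :=
  ⟨1, - bv q n, 1, bu q n, by linear_combination bez h, hq.ne_zero⟩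

theorem wA_mat (hq : q.Prime) (h : q.Coprime n) : (wA hq h).mat.1 = wI q n := by
  change !![(q : ℤ) * 1, - bv q n; (n : ℤ) * q * 1, q * bu q n] = _
  rw [mul_one, mul_one]
  rfl

theorem cW_rel (hq : q.Prime) (h : q.Coprime n) (hqM : q.Coprime M)
    (x : H1 ((Lvl.gamma0 (n * q)).ι M) rho) {γ γ' : SL(2, ℤ)} (hγ : γ ∈ Gamma0 (n * q))
    (hγ' : γ' ∈ Gamma0 (n * q)) (hrel : ofSL γ * (wA hq h).mat = (wA hq h).mat * ofSL γ') :
    toHom hrho ((cW hq h hqM).map rho x) (Additive.ofMul ⟨γ', hγ'⟩) =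
      toHom hrho x (Additive.ofMul ⟨γ, hγ⟩) := by
  apply toHom_cW
  have h1 : γ.1 * (wA hq h).mat.1 = (wA hq h).mat.1 * γ'.1 := congrArg Subtype.val hrel
  rw [wA_mat] at h1
  exact h1.symm

theorem cW_pdHom (hq : q.Prime) (h : q.Coprime n) (hqM : q.Coprime M)
    (z : LL (Gamma0 (n * q))) :
    (cW hq h hqM).map rho (ofHom hrho (pdHom O ((wA hq h).wL z))) = ofHom hrho (pdHom O z) := by
  apply toHom_injective hrho
  refine AddMonoidHom.ext fun γ => ?_
  obtain ⟨⟨γ', hγ'⟩, rfl⟩ := Additive.ofMul.surjective γ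
  obtain ⟨γ, hγ, h1⟩ := (wA hq h).norm2 hγ'
  rw [cW_rel hrho hq h hqM _ hγ hγ' h1.symm, toHom_ofHom, toHom_ofHom]
  exact congrArg (Int.cast : ℤ → O) ((wA hq h).pd_wL hγ hγ' h1.symm z)

theorem cW_pdHom' (hq : q.Prime) (h : q.Coprime n) (hqM : q.Coprime M)
    (z : LL (Gamma0 (n * q))) :
    (cW hq h hqM).map rho (ofHom hrho (pdHom O z)) = ofHom hrho (pdHom O ((wA hq h).wL z)) := by
  rw [← cW_pdHom hrho hq h hqM ((wA hq h).wL z), (wA hq h).wL_wL]

end

end Fermat.Agent.IharaM
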