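import Fermat.Agent.IharaM.LocLem
import Fermat.Agent.IharaM.Tw
import Fermat.Agent.IharaM.Surj2

/-!
# The degeneracy data for the trivial representation
-/

set_option autoImplicit false
set_option linter.unusedSectionVars false

namespace Fermat.Agent.IharaM

open Matrix CongruenceSubgroup
open scoped MatrixGroups
open Fermat.Agent.LR
open Fermat.Agent.HeckeHom
open Fermat.Agent.TW Fermat.Agent.TWDeg

noncomputable section

section

variable {m n q M : ℕ} {O : Type} [CommRing O]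
  {rho : Representation O (Gp M) O} (hrho : ∀ g, rho g = 1)
  (hq : q.Prime) (h : q.Coprime n) (hqM : q.Coprime M) (hn : n ∣ m) (hnq : n * q ∣ m)
  (hM : M ∣ m) (hs : rho (scal hq hqM) = 1)

/-- homomorphisms attached to classes -/
def tH : (Stg.gamma0 n hn hM).H rho →ₗ[O] (Additive (Gamma0 n) →+ O) :=
  toHom (ι := (Lvl.gamma0 n).ι M) hrho

/-- classes attached to homomorphisms -/
def oH : (Additive (Gamma0 n) →+ O) →ₗ[O] (Stg.gamma0 n hn hM).H rho :=
  ofHom (ι := (Lvl.gamma0 n).ι M) hrho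

theorem tH_oH (D : Additive (Gamma0 n) →+ O) : tH hrho hn hM (oH hrho hn hM D) = D := rfl

theorem oH_tH (x : (Stg.gamma0 n hn hM).H rho) : oH hrho hn hM (tH hrho hn hM x) = x :=
  ofHom_toHom hrho x

theorem tH_injective : Function.Injective (tH (rho := rho) hrho hn hM) := toHom_injective hrho

theorem oH_surjective : Function.Surjective (oH (rho := rho) hrho hn hM) := fun x =>
  ⟨_, oH_tH hrho hn hM x⟩

theorem tH_T (l : Pr m) (hl : ¬ (l : ℕ) ∣ n) (x : (Stg.gamma0 n hn hM).H rho) :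
    tH hrho hn hM ((Stg.gamma0 n hn hM).T rho l x) =
      (dataT l.2.1 hl).hom O (tH hrho hn hM x) := toHom_T hrho hn hM l hl x

theorem oH_T (l : Pr m) (hl : ¬ (l : ℕ) ∣ n) (D : Additive (Gamma0 n) →+ O) :
    oH hrho hn hM ((dataT l.2.1 hl).hom O D) = (Stg.gamma0 n hn hM).T rho l (oH hrho hn hM D) := by
  apply tH_injective hrho hn hM
  rw [tH_T hrho hn hM l hl, tH_oH, tH_oH]

theorem tH_I (x : (Stg.gamma0 n hn hM).H rho) (γ : Gamma0 (n * q)) :
    tH hrho hnq hM ((degData rho hq h hqM hn hnq hM hs).I x) (Additive.ofMul γ) =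
      tH hrho hn hM x (Additive.ofMul ⟨γ.1, Gamma0_mul_le n q γ.2⟩) :=
  toHom_cI hrho x γ

theorem tH_W (x : (Stg.gamma0 (n * q) hnq hM).H rho) {γ γ' : SL(2, ℤ)}
    (hγ : γ ∈ Gamma0 (n * q)) (hγ' : γ' ∈ Gamma0 (n * q))
    (hrel : ofSL γ * (wA hq h).mat = (wA hq h).mat * ofSL γ') :
    tH hrho hnq hM ((degData rho hq h hqM hn hnq hM hs).W x) (Additive.ofMul ⟨γ', hγ'⟩) =
      tH hrho hnq hM x (Additive.ofMul ⟨γ, hγ⟩) :=
  cW_rel hrho hq h hqM x hγ hγ' hrel

theorem J_pdHom (z : LL (Gamma0 (n * q))) :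
    (degData rho hq h hqM hn hnq hM hs).J (oH hrho hnq hM (pdHom O z)) =
      oH hrho hn hM (pdHom O (ALD.rL n q z)) := by
  apply tH_injective hrho hn hM
  rw [tH_oH]
  exact cJ_pdHom hrho hq h z

theorem W_pdHom (z : LL (Gamma0 (n * q))) :
    (degData rho hq h hqM hn hnq hM hs).W (oH hrho hnq hM (pdHom O z)) =
      oH hrho hnq hM (pdHom O ((wA hq h).wL z)) :=
  cW_pdHom' hrho hq h hqM z

theorem tH_up (x : (Stg.gamma0 n hn hM).H rho × (Stg.gamma0 n hn hM).H rho) {γ γ' : SL(2, ℤ)}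
    (hγ : γ ∈ Gamma0 (n * q)) (hγ' : γ' ∈ Gamma0 (n * q))
    (hrel : ofSL γ * (wA hq h).mat = (wA hq h).mat * ofSL γ') :
    tH hrho hnq hM ((degData rho hq h hqM hn hnq hM hs).up x) (Additive.ofMul ⟨γ', hγ'⟩) =
      tH hrho hn hM x.1 (Additive.ofMul ⟨γ', Gamma0_mul_le n q hγ'⟩) +
      tH hrho hn hM x.2 (Additive.ofMul ⟨γ, Gamma0_mul_le n q hγ⟩) := by
  have h1 : (degData rho hq h hqM hn hnq hM hs).up x =
      (degData rho hq h hqM hn hnq hM hs).I x.1 + (degData rho hq h hqM hn hnq hM hs).W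
        ((degData rho hq h hqM hn hnq hM hs).I x.2) := rfl
  rw [h1, map_add, AddMonoidHom.add_apply, tH_I, tH_W hrho hq h hqM hn hnq hM hs _ hγ hγ' hrel,
    tH_I]

theorem down_pdHom (z : LL (Gamma0 (n * q))) :
    (degData rho hq h hqM hn hnq hM hs).down (oH hrho hnq hM (pdHom O z)) =
      (oH hrho hn hM (pdHom O (ALD.rL n q z)),
        oH hrho hn hM (pdHom O (ALD.rL n q ((wA hq h).wL z)))) := by
  rw [DegData.down_apply, W_pdHom hrho, J_pdHom hrho, J_pdHom hrho]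

end

end

end Fermat.Agent.IharaM
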