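import Fermat.Agent.IharaM.Main
import Fermat.Agent.LevelRaise.GalInput

/-!
# The localised Ihara lemma: applications
-/

set_option autoImplicit false
set_option linter.unusedSectionVars false

namespace Fermat.Agent.IharaM

open Matrix CongruenceSubgroup WeierstrassCurve
open scoped MatrixGroups
open Fermat.Agent.TW Fermat.Agent.TWDeg

noncomputable section

section G2

/-- The supply of primes for the residual representation of an elliptic curve. -/
theorem supply_of_curve (E : WeierstrassCurve ℚ) [E.IsElliptic] (p : ℕ) [hp : Fact p.Prime]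
    {W : WeierstrassCurve ℤ} (hWE : W.IsIntegralModelOf E)
    (hirr : WeierstrassCurve.Affine.Point.GaloisRepIsIrreducible (K := AlgebraicClosure ℚ) ℚ E p) (hp2 : p ≠ 2)
    {m q : ℕ} (hm : 0 < m) (hq : q.Prime) {k : Type} [Field k] (hk : (p : k) = 0) (lam : ℕ → k)
    (hlam : ∀ ℓ, ℓ.Prime → ¬ ℓ ∣ m → W.IsGoodPrimeFor ℓ → ℓ ≠ p →
      lam ℓ = ((W.apOfModel ℓ : ℤ) : k)) : Supply m q p lam := by
  intro a r ha hr
  obtain ⟨ℓ, hℓ, ⟨-, hgood, hℓm, hℓp⟩, h1, h2, h3⟩ :=
    Fermat.Agent.LRGal.exists_good_prime E p hWE hirr hp2 hm hq a r ha hr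
  have hℓm' : ¬ ℓ ∣ m := fun h => hℓm (h.mul_right _)
  refine ⟨ℓ, hℓ, hℓm', h1, h2, ?_⟩
  rw [hlam ℓ hℓ hℓm' hgood hℓp]
  intro h4
  apply h3
  have hch : CharP k p := (CharP.charP_iff_prime_eq_zero hp.out).mpr hk
  have h5 : (((W.apOfModel ℓ - (1 + ℓ) : ℤ)) : k) = 0 := by
    push_cast
    rw [h4, sub_self]
  rw [CharP.intCast_eq_zero_iff k p] at h5
  have h6 := (ZMod.intCast_zmod_eq_zero_iff_dvd _ p).mpr h5
  push_cast at h6
  rw [sub_eq_zero] at h6
  exact h6

end G2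

section

variable {m n q M : ℕ} {O : Type} [CommRing O] [IsDomain O] [CharZero O] [IsNoetherianRing O]
  {k : Type} [Field k] [Algebra O k] {rho : Representation O (Gp M) O} (hrho : ∀ g, rho g = 1)
  (hq : q.Prime) (h : q.Coprime n) (hqM : q.Coprime M) (hn : n ∣ m) (hnq : n * q ∣ m)
  (hM : M ∣ m) (hs : rho (scal hq hqM) = 1)
  (P : Ideal (TPoly m O)) [P.IsPrime]

include hrho in
/-- the statement with scalars in `O`. -/
theorem ihara_up' (hsurj : Function.Surjective (algebraMap O k)) {p : ℕ} (hp : p.Prime)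
    (hp2 : p ≠ 2) (hk : (p : k) = 0) (hn0 : 0 < n) (π : O)
    (hker : ∀ a : O, algebraMap O k a = 0 ↔ ∃ b, a = π * b) (lam : ℕ → k)
    (hlam : ∀ l : Pr m, ∃ a : O, algebraMap O k a = lam l ∧
      (MvPolynomial.X l - MvPolynomial.C a : TPoly m O) ∈ P)
    (G2 : Supply m q p lam)
    (x : Loc P ((Stg.gamma0 n hn hM).H rho) × Loc P ((Stg.gamma0 n hn hM).H rho))
    (z : Loc P ((Stg.gamma0 (n * q) hnq hM).H rho))
    (hx : ((degData rho hq h hqM hn hnq hM hs).loc P).up x = π • z) :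
    ∃ y, x = π • y := by
  have hπ0 : π ≠ 0 := by
    rintro rfl
    obtain ⟨b, hb⟩ := (hker (p : O)).mp (by rw [map_natCast, hk])
    rw [zero_mul] at hb
    exact hp.ne_zero (by exact_mod_cast hb)
  obtain ⟨y, hy⟩ := ihara_up hrho hq h hqM hn hnq hM hs P hsurj hp hp2 hk hn0 π hπ0 hker lam
    hlam G2 x ⟨z, hx⟩
  exact ⟨y, hy⟩

end

section DVR

open IsLocalRing

variable {m n q M : ℕ} {O : Type} [CommRing O] [IsDomain O] [CharZero O]
  [IsDiscreteValuationRing O] {rho : Representation O (Gp M) O} (hrho : ∀ g, rho g = 1)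
  (hq : q.Prime) (h : q.Coprime n) (hqM : q.Coprime M) (hn : n ∣ m) (hnq : n * q ∣ m)
  (hM : M ∣ m) (hs : rho (scal hq hqM) = 1)
  (P : Ideal (TPoly m O)) [P.IsPrime]

theorem residue_eq_zero_iff_dvd {π : O} (hπ : Irreducible π) (a : O) :
    algebraMap O (ResidueField O) a = 0 ↔ ∃ b, a = π * b := by
  change residue O a = 0 ↔ _
  rw [IsLocalRing.residue_eq_zero_iff, hπ.maximalIdeal_eq, Ideal.mem_span_singleton]
  exact Iff.rfl

include hrho in
/-- **Ihara's lemma modulo a uniformiser** -/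
theorem ihara_up_dvr {p : ℕ} (hp : p.Prime)
    (hp2 : p ≠ 2) (hpO : (p : O) ∈ maximalIdeal O) (hn0 : 0 < n) (π : O)
    (hπ : Irreducible π) (lam : ℕ → O)
    (hlam : ∀ l : Pr m, (MvPolynomial.X l - MvPolynomial.C (lam l) : TPoly m O) ∈ P)
    (G2 : Supply m q p (fun ℓ => residue O (lam ℓ)))
    (x : Loc P ((Stg.gamma0 n hn hM).H rho) × Loc P ((Stg.gamma0 n hn hM).H rho))
    (z : Loc P ((Stg.gamma0 (n * q) hnq hM).H rho))
    (hx : ((degData rho hq h hqM hn hnq hM hs).loc P).up x = π • z) :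
    ∃ y, x = π • y :=
  ihara_up' (k := ResidueField O) hrho hq h hqM hn hnq hM hs P residue_surjective hp hp2 (by
    rw [← map_natCast (residue O), IsLocalRing.residue_eq_zero_iff]
    exact hpO) hn0 π (residue_eq_zero_iff_dvd hπ) (fun ℓ => residue O (lam ℓ))
    (fun l => ⟨lam l, rfl, hlam l⟩) G2 x z hx

include hrho in
/-- **Ihara's lemma, dual form** -/
theorem ihara_down_dvr {p : ℕ} (hp : p.Prime)
    (hp2 : p ≠ 2) (hpO : (p : O) ∈ maximalIdeal O) (hn0 : 0 < n)
    (hPk : ∀ a ∈ maximalIdeal O, (MvPolynomial.C a : TPoly m O) ∈ P) (lam : ℕ → O)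
    (hlam : ∀ l : Pr m, (MvPolynomial.X l - MvPolynomial.C (lam l) : TPoly m O) ∈ P)
    (G2 : Supply m q p (fun ℓ => residue O (lam ℓ))) :
    Function.Surjective ((degData rho hq h hqM hn hnq hM hs).loc P).down :=
  ihara_down (k := ResidueField O) hrho hq h hqM hn hnq hM hs P residue_surjective hp hp2 (by
    rw [← map_natCast (residue O), IsLocalRing.residue_eq_zero_iff]
    exact hpO) hn0 (fun a ha => hPk a ((IsLocalRing.residue_eq_zero_iff a).mp ha))
    (fun ℓ => residue O (lam ℓ)) (fun l => ⟨lam l, rfl, hlam l⟩) G2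

end DVR

end

end Fermat.Agent.IharaM
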