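import Fermat.Agent.IharaM.Alg
import Fermat.Agent.TWDeg.Stg

/-!
# Algebra for localised degeneracy maps
-/

set_option autoImplicit false
set_option linter.unusedSectionVars false

namespace Fermat.Agent.IharaM

open Fermat.Agent.TW Fermat.Agent.TWDeg

noncomputable section

variable {B N₁ N₂ : Type} [CommRing B] [AddCommGroup N₁] [Module B N₁]
  [AddCommGroup N₂] [Module B N₂] (D : DegData B N₁ N₂) (P : Ideal B) [P.IsPrime]

theorem exists_smul_pair (x : Loc P N₁ × Loc P N₁) :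
    ∃ s ∉ P, ∃ n : N₁ × N₁, s • x = (Loc.mk P N₁ n.1, Loc.mk P N₁ n.2) := by
  obtain ⟨s, hs, a, ha⟩ := Loc.exists_smul x.1
  obtain ⟨t, ht, b, hb⟩ := Loc.exists_smul x.2
  refine ⟨s * t, fun h => ((inferInstance : P.IsPrime).mem_or_mem h).elim hs ht,
    (t • a, s • b), ?_⟩
  refine Prod.ext ?_ ?_
  · change (s * t) • x.1 = Loc.mk P N₁ (t • a)
    rw [map_smul, ← ha, smul_smul, mul_comm]
  · change (s * t) • x.2 = Loc.mk P N₁ (s • b)
    rw [map_smul, ← hb, smul_smul]

theorem loc_up_mk (n : N₁ × N₁) :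
    (D.loc P).up (Loc.mk P N₁ n.1, Loc.mk P N₁ n.2) = Loc.mk P N₂ (D.up n) := by
  rw [DegData.up_apply]
  change Loc.map P D.I _ + Loc.map P D.W (Loc.map P D.I _) = _
  rw [Loc.map_mk, Loc.map_mk, Loc.map_mk, ← map_add]
  rfl

theorem loc_down_mk (y : N₂) :
    (D.loc P).down (Loc.mk P N₂ y) = (Loc.mk P N₁ (D.down y).1, Loc.mk P N₁ (D.down y).2) := by
  rw [DegData.down_apply]
  change (Loc.map P D.J _, Loc.map P D.J (Loc.map P D.W _)) = _
  rw [Loc.map_mk, Loc.map_mk, Loc.map_mk]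
  rfl

theorem one_notMem : (1 : B) ∉ P := fun h =>
  (inferInstance : P.IsPrime).ne_top ((Ideal.eq_top_iff_one P).mpr h)

theorem notMem_of_sub_one {s : B} (hs : s - 1 ∈ P) : s ∉ P := fun h =>
  one_notMem P (by
    have := P.sub_mem h hs
    rwa [sub_sub_cancel] at this)

theorem notMem_mul {s t : B} (hs : s ∉ P) (ht : t ∉ P) : s * t ∉ P := fun h =>
  ((inferInstance : P.IsPrime).mem_or_mem h).elim hs ht

/-- **Saturation of the localised degeneracy map.** -/
theorem loc_up_of (π : B)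
    [IsArtinian B ((N₁ × N₁) ⧸ LinearMap.range (LinearMap.lsmul B (N₁ × N₁) π))]
    [IsNoetherian B ((N₁ × N₁) ⧸ LinearMap.range (LinearMap.lsmul B (N₁ × N₁) π))]
    (hkey : ∀ x : N₁ × N₁, (∃ z, D.up x = π • z) → (∀ b ∈ P, ∃ y, b • x = π • y) →
      ∃ y, x = π • y)
    (x : Loc P N₁ × Loc P N₁) (hx : ∃ z, (D.loc P).up x = π • z) : ∃ y, x = π • y := by
  set S := LinearMap.range (LinearMap.lsmul B (N₁ × N₁) π) with hS
  have hSmem : ∀ a, S.mkQ a = 0 → ∃ y, a = π • y := by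
    intro a ha
    rw [Submodule.mkQ_apply, Submodule.Quotient.mk_eq_zero] at ha
    obtain ⟨y, hy⟩ := ha
    exact ⟨y, hy.symm⟩
  let K : Submodule B (N₁ × N₁) :=
    (LinearMap.range (LinearMap.lsmul B N₂ π)).comap D.up
  have hK : ∀ a, a ∈ K ↔ ∃ z, D.up a = π • z := by
    intro a
    constructor
    · rintro ⟨z, hz⟩
      exact ⟨z, hz.symm⟩
    · rintro ⟨z, hz⟩
      exact ⟨z, hz.symm⟩
  obtain ⟨s, hs, hs0⟩ := exists_smul_eq_zero P (Q := K.map S.mkQ) (by
    rintro ⟨_, a, ha, rfl⟩ h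
    apply Subtype.ext
    change S.mkQ a = 0
    obtain ⟨y, hy⟩ := hkey a ((hK a).mp ha) (fun b hb => by
      apply hSmem
      rw [map_smul]
      exact congrArg Subtype.val (h b hb))
    rw [hy, Submodule.mkQ_apply, Submodule.Quotient.mk_eq_zero]
    exact ⟨y, rfl⟩)
  have hsP := notMem_of_sub_one P hs
  obtain ⟨z, hz⟩ := hx
  obtain ⟨t, ht, a, ha⟩ := exists_smul_pair P x
  obtain ⟨u, hu, c, hc⟩ := Loc.exists_smul z
  have h1 : Loc.mk P N₂ (u • D.up a - t • (π • c)) = 0 := by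
    rw [map_sub, map_smul, map_smul, map_smul, ← loc_up_mk, ← ha, map_smul, hz, ← hc, sub_eq_zero,
      smul_smul, smul_smul, smul_smul, smul_smul]
    congr 1
    ring
  obtain ⟨v, hv, h2⟩ := Loc.mk_eq_zero.mp h1
  have h3 : (v * u) • a ∈ K := by
    rw [hK]
    refine ⟨(v * t) • c, ?_⟩
    rw [smul_sub, sub_eq_zero] at h2
    rw [map_smul, mul_smul, h2, smul_smul, smul_smul, smul_smul]
    congr 1
    ring
  have h4 := congrArg Subtype.val (hs0 ⟨_, (v * u) • a, h3, rfl⟩)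
  change s • S.mkQ ((v * u) • a) = 0 at h4
  rw [← map_smul] at h4
  obtain ⟨y, hy⟩ := hSmem _ h4
  -- divide
  have h5 : s * (v * u) * t ∉ P := notMem_mul P (notMem_mul P hsP (notMem_mul P hv hu)) ht
  have h6 : (s * (v * u) * t) • x = π • (Loc.mk P N₁ y.1, Loc.mk P N₁ y.2) := by
    have e1 := congrArg Prod.fst hy
    have e2 := congrArg Prod.snd hy
    change s • (v * u) • a.1 = π • y.1 at e1
    change s • (v * u) • a.2 = π • y.2 at e2
    rw [mul_smul, ha]
    refine Prod.ext ?_ ?_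
    · change (s * (v * u)) • Loc.mk P N₁ a.1 = π • Loc.mk P N₁ y.1
      rw [← map_smul, mul_smul, e1, map_smul]
    · change (s * (v * u)) • Loc.mk P N₁ a.2 = π • Loc.mk P N₁ y.2
      rw [← map_smul, mul_smul, e2, map_smul]
  obtain ⟨y1, hy1⟩ := (Loc.smul_bij (N := N₁) h5).2 (Loc.mk P N₁ y.1)
  obtain ⟨y2, hy2⟩ := (Loc.smul_bij (N := N₁) h5).2 (Loc.mk P N₁ y.2)
  change (s * (v * u) * t) • y1 = _ at hy1
  change (s * (v * u) * t) • y2 = _ at hy2
  refine ⟨(y1, y2), Prod.ext ?_ ?_⟩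
  · apply (Loc.smul_bij (N := N₁) h5).1
    have e1 := congrArg Prod.fst h6
    change (s * (v * u) * t) • x.1 = π • Loc.mk P N₁ y.1 at e1
    change (s * (v * u) * t) • x.1 = (s * (v * u) * t) • (π • y1)
    rw [smul_comm, hy1, e1]
  · apply (Loc.smul_bij (N := N₁) h5).1
    have e1 := congrArg Prod.snd h6
    change (s * (v * u) * t) • x.2 = π • Loc.mk P N₁ y.2 at e1
    change (s * (v * u) * t) • x.2 = (s * (v * u) * t) • (π • y2)
    rw [smul_comm, hy2, e1]

/-- **Surjectivity of the localised degeneracy map.** -/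
theorem loc_down_surjective [Module.Finite B (N₁ × N₁)]
    (h : LinearMap.range D.down ⊔ P • (⊤ : Submodule B (N₁ × N₁)) = ⊤) :
    Function.Surjective (D.loc P).down := by
  obtain ⟨s, hs, hs0⟩ := Submodule.exists_sub_one_mem_and_smul_eq_zero_of_fg_of_le_smul P
    (⊤ : Submodule B ((N₁ × N₁) ⧸ LinearMap.range D.down)) Module.Finite.fg_top (by
      intro x _
      obtain ⟨a, rfl⟩ := Submodule.mkQ_surjective _ x
      obtain ⟨r, hr, p, hp, rfl⟩ := Submodule.mem_sup.mp (h.symm ▸ Submodule.mem_top :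
        a ∈ LinearMap.range D.down ⊔ P • (⊤ : Submodule B (N₁ × N₁)))
      rw [map_add]
      refine add_mem ?_ ?_
      · rw [Submodule.mkQ_apply, (Submodule.Quotient.mk_eq_zero _).mpr hr]
        exact zero_mem _
      · have h1 := Submodule.mem_map_of_mem (f := (LinearMap.range D.down).mkQ) hp
        rw [Submodule.map_smul''] at h1
        exact Submodule.smul_mono le_rfl le_top h1)
  have hsP := notMem_of_sub_one P hs
  intro x
  obtain ⟨t, ht, a, ha⟩ := exists_smul_pair P x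
  have h1 := hs0 (Submodule.mkQ _ a) Submodule.mem_top
  rw [← map_smul, Submodule.mkQ_apply, Submodule.Quotient.mk_eq_zero] at h1
  obtain ⟨y, hy⟩ := h1
  obtain ⟨z, hz⟩ := (Loc.smul_bij (N := N₂) (notMem_mul P hsP ht)).2 (Loc.mk P N₂ y)
  change (s * t) • z = _ at hz
  refine ⟨z, ?_⟩
  have h2 : (s * t) • (D.loc P).down z = (s * t) • x := by
    rw [← map_smul, hz, loc_down_mk, hy, mul_smul, ha]
    exact Prod.ext (map_smul _ _ _) (map_smul _ _ _)
  refine Prod.ext ?_ ?_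
  · exact (Loc.smul_bij (N := N₁) (notMem_mul P hsP ht)).1 (congrArg Prod.fst h2)
  · exact (Loc.smul_bij (N := N₁) (notMem_mul P hsP ht)).1 (congrArg Prod.snd h2)

/-- the criterion by functionals -/
theorem sup_eq_top_of {O k : Type} [CommRing O] [Field k] [Algebra O k] [Algebra O B]
    [Module O N₁] [IsScalarTower O B N₁]
    (hsurj : Function.Surjective (algebraMap O k))
    (hP : ∀ a : O, algebraMap O k a = 0 → algebraMap O B a ∈ P)
    (h : ∀ f : (N₁ × N₁) →ₗ[O] k, (∀ y, f (D.down y) = 0) → (∀ b ∈ P, ∀ x, f (b • x) = 0) →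
      f = 0) :
    LinearMap.range D.down ⊔ P • (⊤ : Submodule B (N₁ × N₁)) = ⊤ := by
  by_contra hne
  set S := LinearMap.range D.down ⊔ P • (⊤ : Submodule B (N₁ × N₁)) with hS
  obtain ⟨v, hv⟩ : ∃ v, v ∉ S := by
    by_contra h1
    push Not at h1
    exact hne (Submodule.eq_top_iff'.mpr h1)
  have hv0 : S.mkQ v ≠ 0 := by
    rw [Submodule.mkQ_apply, Ne, Submodule.Quotient.mk_eq_zero]
    exact hv
  obtain ⟨f, hf⟩ := exists_functional (O := O) (k := k) hsurj (Q := (N₁ × N₁) ⧸ S) (by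
    intro a ha x
    obtain ⟨x, rfl⟩ := S.mkQ_surjective x
    rw [← algebraMap_smul B a (S.mkQ x), ← map_smul, Submodule.mkQ_apply,
      Submodule.Quotient.mk_eq_zero]
    exact Submodule.mem_sup_right (Submodule.smul_mem_smul (hP a ha) Submodule.mem_top)) hv0
  apply hf
  have h1 := h (f.comp (S.mkQ.restrictScalars O)) (fun y => by
    have h2 : S.mkQ (D.down y) = 0 :=
      (Submodule.Quotient.mk_eq_zero S).mpr (Submodule.mem_sup_left ⟨y, rfl⟩)
    change f (S.mkQ (D.down y)) = 0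
    rw [h2, map_zero]) (fun b hb x => by
    have h2 : S.mkQ (b • x) = 0 := (Submodule.Quotient.mk_eq_zero S).mpr
      (Submodule.mem_sup_right (Submodule.smul_mem_smul hb Submodule.mem_top))
    change f (S.mkQ (b • x)) = 0
    rw [h2, map_zero])
  exact LinearMap.congr_fun h1 v

end

end Fermat.Agent.IharaM
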