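import Fermat.Agent.LevelRaise.Core

/-!
# Torsion free modular symbols are functionals on the lattice
-/

set_option autoImplicit false
set_option linter.unusedSectionVars false

namespace Fermat.Agent.IharaM

open Matrix CongruenceSubgroup
open scoped MatrixGroups
open Fermat.Agent.LR

noncomputable section

variable {R : Type*} [CommRing R] {Γ : Subgroup SL(2, ℤ)}

/-- the group generated by the values -/
def vals (φ : MS R Γ) : AddSubgroup R :=
  AddSubgroup.closure (Set.range fun g : SL(2, ℤ) => φ.1 (g • e1) (g • e2))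

theorem e1_mem_vals (φ : MS R Γ) (n : ℕ) : ∀ v : Vec, v.1.2.natAbs ≤ n → φ.1 e1 v ∈ vals φ := by
  induction n with
  | zero =>
    intro v hv
    have h0 : v.1.2 = 0 := by simpa using hv
    rw [Coc.par φ.2.1 (by simp [dt, det2, e1_val, h0])]
    exact zero_mem _
  | succ n ih =>
    intro v hv
    by_cases h0 : v.1.2 = 0
    · rw [Coc.par φ.2.1 (by simp [dt, det2, e1_val, h0])]
      exact zero_mem _
    obtain ⟨g, hg1, hg2⟩ := exists_unimodular_step v h0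
    have h1 : φ.1 e1 v = φ.1 e1 (g • e1) + φ.1 (g • e1) (g • e2) := by
      rw [Coc.add φ.2.1]
      exact Coc.congr φ.2.1 (dt_self _) hg1
    rw [h1]
    exact add_mem (ih _ (by omega)) (AddSubgroup.subset_closure ⟨g, rfl⟩)

theorem mem_vals (φ : MS R Γ) (u v : Vec) : φ.1 u v ∈ vals φ := by
  have h1 : φ.1 u v = φ.1 e1 v - φ.1 e1 u := by
    rw [← Coc.add φ.2.1 e1 u v]; abel
  rw [h1]
  exact sub_mem (e1_mem_vals φ _ v le_rfl) (e1_mem_vals φ _ u le_rfl)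

theorem vals_fg [Finite (SL(2, ℤ) ⧸ Γ)] (φ : MS R Γ) : AddGroup.FG (vals φ) := by
  rw [AddGroup.fg_iff_addSubgroup_fg]
  have h : Set.range (fun g : SL(2, ℤ) => φ.1 (g • e1) (g • e2)) ⊆
      Set.range (fun c : SL(2, ℤ) ⧸ Γ => φ.1 (c.out⁻¹ • e1) (c.out⁻¹ • e2)) := by
    rintro _ ⟨g, rfl⟩
    refine ⟨(QuotientGroup.mk g⁻¹ : SL(2, ℤ) ⧸ Γ), ?_⟩
    obtain ⟨γ, hγ⟩ := QuotientGroup.mk_out_eq_mul Γ g⁻¹
    change φ.1 ((QuotientGroup.mk g⁻¹ : SL(2, ℤ) ⧸ Γ).out⁻¹ • e1)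
      ((QuotientGroup.mk g⁻¹ : SL(2, ℤ) ⧸ Γ).out⁻¹ • e2) = φ.1 (g • e1) (g • e2)
    rw [hγ, _root_.mul_inv_rev, inv_inv, mul_smul, mul_smul]
    exact φ.2.2 _ (Γ.inv_mem γ.2) _ _
  have hfin := (Set.finite_range (fun c : SL(2, ℤ) ⧸ Γ => φ.1 (c.out⁻¹ • e1) (c.out⁻¹ • e2))).subset h
  obtain ⟨s, hs⟩ := hfin.exists_finset_coe
  exact ⟨s, by rw [hs]; rfl⟩

/-- integral symbols as functionals -/
theorem exists_hat_int (ψ : MS ℤ Γ) : ∃ y : LL Γ →+ ℤ, ∀ u v, y ⟨ev Γ u v, ev_mem u v⟩ = ψ.1 u v := by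
  let ψC : MS ℂ Γ := ⟨fun u v => (ψ.1 u v : ℂ), ⟨fun u v w => by
    rw [← Int.cast_add, ψ.2.1.1 u v w], fun u v h => by
    change ((ψ.1 u v : ℤ) : ℂ) = 0
    rw [ψ.2.1.2 u v h, Int.cast_zero]⟩, fun γ hγ u v => by
    change ((ψ.1 (γ • u) (γ • v) : ℤ) : ℂ) = ((ψ.1 u v : ℤ) : ℂ)
    rw [ψ.2.2 γ hγ u v]⟩
  have h1 : ∀ d : LL Γ, ∃ n : ℤ, d.1 ψC = n := fun d => exists_int d fun u v => ⟨ψ.1 u v, rfl⟩
  choose f hf using h1
  refine ⟨⟨⟨f, ?_⟩, ?_⟩, ?_⟩
  · have h := hf 0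
    have h2 : ((0 : LL Γ) : MS ℂ Γ →ₗ[ℂ] ℂ) ψC = 0 := rfl
    rw [h2] at h
    exact_mod_cast h.symm
  · intro x y
    have h := hf (x + y)
    have h3 : (x + y).1 ψC = x.1 ψC + y.1 ψC := rfl
    rw [h3, hf, hf] at h
    exact_mod_cast h.symm
  · intro u v
    have h : ((ψ.1 u v : ℤ) : ℂ) = (f ⟨ev Γ u v, ev_mem u v⟩ : ℂ) := hf ⟨ev Γ u v, ev_mem u v⟩
    exact_mod_cast h.symm

/-- **Torsion free symbols are functionals on the lattice.** -/
theorem exists_hat [Finite (SL(2, ℤ) ⧸ Γ)] [IsAddTorsionFree R] (φ : MS R Γ) :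
    ∃ x : LL Γ →+ R, hat x = φ := by
  have h2 : AddGroup.FG (vals φ) := vals_fg φ
  have h3 : Module.Finite ℤ (vals φ) := Module.Finite.iff_addGroup_fg.mpr h2
  have h4 : Module.Free ℤ (vals φ) := inferInstance
  let b := Module.finBasis ℤ (vals φ)
  let val : Vec → Vec → vals φ := fun u v => ⟨φ.1 u v, mem_vals φ u v⟩
  let ψ : Fin (Module.finrank ℤ (vals φ)) → MS ℤ Γ := fun i =>
    ⟨fun u v => b.repr (val u v) i, ⟨fun u v w => by
      have h : val u v + val v w = val u w := Subtype.ext (φ.2.1.1 u v w)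
      change b.repr (val u v) i + b.repr (val v w) i = b.repr (val u w) i
      rw [← h, map_add]
      rfl, fun u v h => by
      have h : val u v = 0 := Subtype.ext (φ.2.1.2 u v h)
      change b.repr (val u v) i = 0
      rw [h, map_zero]
      rfl⟩, fun γ hγ u v => by
      have h : val (γ • u) (γ • v) = val u v := Subtype.ext (φ.2.2 γ hγ u v)
      change b.repr (val (γ • u) (γ • v)) i = b.repr (val u v) i
      rw [h]⟩
  choose y hy using fun i => exists_hat_int (ψ i)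
  refine ⟨∑ i, (zmultiplesHom R (b i : R)).comp (y i), ?_⟩
  apply Subtype.ext
  funext u v
  rw [hat_apply, AddMonoidHom.finsetSum_apply]
  have h5 := congrArg Subtype.val (b.sum_repr (val u v))
  rw [AddSubmonoidClass.coe_finsetSum] at h5
  refine Eq.trans (Finset.sum_congr rfl fun i _ => ?_) h5
  rw [AddMonoidHom.comp_apply, hy, zmultiplesHom_apply]
  rfl

end

end Fermat.Agent.IharaM
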