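import Fermat.Agent.IharaM.Deg

/-!
# The localised Ihara lemma
-/

set_option autoImplicit false
set_option linter.unusedSectionVars false

namespace Fermat.Agent.IharaM

open Matrix CongruenceSubgroup
open scoped MatrixGroups
open Fermat.Agent.LR
open Fermat.Agent.HeckeHom
open Fermat.Agent.TW Fermat.Agent.TWDeg

noncomputable section

theorem artin_of {O k Q : Type} [CommRing O] [Field k] [Algebra O k]
    (hsurj : Function.Surjective (algebraMap O k)) [AddCommGroup Q] [Module O Q]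
    [Module.Finite O Q] (hQ : ∀ a : O, algebraMap O k a = 0 → ∀ x : Q, a • x = 0) :
    IsArtinian O Q := by
  let _ : SMul k Q := ⟨fun c x => (Function.surjInv hsurj c) • x⟩
  have hsmul : ∀ (a : O) (x : Q), algebraMap O k a • x = a • x := by
    intro a x
    change Function.surjInv hsurj (algebraMap O k a) • x = a • x
    rw [← sub_eq_zero, ← sub_smul]
    apply hQ
    rw [map_sub, Function.surjInv_eq hsurj, sub_self]
  let _ : Module k Q := Function.Surjective.moduleLeft (algebraMap O k) hsurj hsmul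
  have : IsScalarTower O k Q := ⟨fun a c x => by
    rw [Algebra.smul_def, mul_smul, hsmul]⟩
  have : Module.Finite k Q := Module.Finite.of_restrictScalars_finite O k Q
  exact isArtinian_of_surjective_algebraMap (R := k) hsurj

/-- the supply of primes -/
def Supply (m q p : ℕ) {k : Type} [Field k] (lam : ℕ → k) : Prop :=
  ∀ a r : ℕ, 0 < a → 0 < r → ∃ ℓ : ℕ, ℓ.Prime ∧ ¬ ℓ ∣ m ∧ a ∣ ℓ - 1 ∧
    p ∣ orderOf ((q : ZMod ℓ) ^ r) ∧ lam ℓ ≠ 1 + ℓ

theorem Supply.good {m q p : ℕ} {k : Type} [Field k] {lam : ℕ → k} (hp : p.Prime)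
    (hk : (p : k) = 0) (H : Supply m q p lam) (a r : ℕ) (ha : 0 < a) (hr : 0 < r) :
    ∃ ℓ : ℕ, ℓ.Prime ∧ (ℓ.Prime ∧ ¬ ℓ ∣ m ∧ (ℓ : k) ≠ 0) ∧ a ∣ ℓ - 1 ∧
      p ∣ orderOf ((q : ZMod ℓ) ^ r) ∧ lam ℓ ≠ 1 + ℓ := by
  obtain ⟨ℓ, h1, h2, h3, h4, h5⟩ := H (a * p) r (Nat.mul_pos ha hp.pos) hr
  refine ⟨ℓ, h1, ⟨h1, h2, ?_⟩, (Dvd.intro _ rfl).trans h3, h4, h5⟩
  obtain ⟨c, hc⟩ := (Dvd.intro_left a rfl : p ∣ a * p).trans h3
  have h6 : ℓ = 1 + p * c := by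
    have := h1.one_lt
    omega
  rw [h6]
  push_cast
  rw [hk, zero_mul, add_zero]
  exact one_ne_zero

section

variable {m n q M : ℕ} {O : Type} [CommRing O] [IsDomain O] [CharZero O] [IsNoetherianRing O]
  {k : Type} [Field k] [Algebra O k] {rho : Representation O (Gp M) O} (hrho : ∀ g, rho g = 1)
  (hq : q.Prime) (h : q.Coprime n) (hqM : q.Coprime M) (hn : n ∣ m) (hnq : n * q ∣ m)
  (hM : M ∣ m) (hs : rho (scal hq hqM) = 1)

include hrho in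
theorem finite_H (hn0 : 0 < n) : Module.Finite O ((Stg.gamma0 n hn hM).H rho) := by
  have : NeZero n := ⟨hn0.ne'⟩
  have h1 : Module.Finite O (Additive (Gamma0 n) →+ O) := finite_hom _ _
  exact Module.Finite.of_surjective (oH hrho hn hM) (oH_surjective hrho hn hM)

/-- the reduction of a class -/
def red (k : Type) [Field k] [Algebra O k] (x : (Stg.gamma0 n hn hM).H rho) :
    Additive (Gamma0 n) →+ k :=
  (algebraMap O k : O →+* k).toAddMonoidHom.comp (tH hrho hn hM x)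

/-- divisible homomorphisms -/
theorem exists_smul_hom (π : O) (hπ : π ≠ 0) {G : Type} [AddZeroClass G] (D : G →+ O)
    (hD : ∀ γ, ∃ b, D γ = π * b) : ∃ D' : G →+ O, D = π • D' := by
  choose f hf using hD
  refine ⟨⟨⟨f, ?_⟩, ?_⟩, ?_⟩
  · apply mul_left_cancel₀ hπ
    rw [← hf, map_zero, mul_zero]
  · intro x y
    apply mul_left_cancel₀ hπ
    change π * f (x + y) = π * (f x + f y)
    rw [mul_add, ← hf, ← hf, ← hf, map_add]
  · exact AddMonoidHom.ext hf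

theorem exists_smul_of_red (π : O) (hπ : π ≠ 0) (hker : ∀ a : O, algebraMap O k a = 0 → ∃ b, a = π * b)
    (x : (Stg.gamma0 n hn hM).H rho) (hx : red hrho hn hM k x = 0) :
    ∃ y : (Stg.gamma0 n hn hM).H rho, x = π • y := by
  obtain ⟨D', hD'⟩ := exists_smul_hom π hπ (tH hrho hn hM x) (fun γ => hker _
    (DFunLike.congr_fun hx γ))
  refine ⟨oH hrho hn hM D', ?_⟩
  rw [← map_smul, ← hD', oH_tH]

/-- the reduction is an eigenvector -/
theorem red_eigen {lam : ℕ → k} (x : (Stg.gamma0 n hn hM).H rho) (π : O)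
    (hπ : algebraMap O k π = 0) (l : Pr m) (a : O) (ha : algebraMap O k a = lam l)
    (hx : ∃ y : (Stg.gamma0 n hn hM).H rho,
      (MvPolynomial.X l - MvPolynomial.C a : TPoly m O) • x = (MvPolynomial.C π : TPoly m O) • y)
    (hl : ¬ (l : ℕ) ∣ n) :
    (dataT l.2.1 hl).hom k (red hrho hn hM k x) = lam l • red hrho hn hM k x := by
  obtain ⟨y, hy⟩ := hx
  rw [sub_smul, Stg.X_smul, Stg.C_smul, Stg.C_smul, sub_eq_iff_eq_add] at hy
  rw [red, HData.hom_comp]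
  have h1 : (dataT l.2.1 hl).hom O (tH hrho hn hM x) =
      π • tH hrho hn hM y + a • tH hrho hn hM x := by
    rw [← tH_T hrho hn hM l hl x, hy, map_add, map_smul, map_smul]
  rw [h1]
  refine AddMonoidHom.ext fun γ => ?_
  change algebraMap O k (π * _ + a * _) = lam l * algebraMap O k _
  rw [map_add, map_mul, map_mul, hπ, zero_mul, zero_add, ha]

variable (P : Ideal (TPoly m O))

include hrho in
/-- **Ihara's lemma, key step** -/
theorem key {p : ℕ} (hp : p.Prime) (hp2 : p ≠ 2) (hk : (p : k) = 0) (hn0 : 0 < n) (π : O)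
    (hπ0 : π ≠ 0) (hker : ∀ a : O, algebraMap O k a = 0 ↔ ∃ b, a = π * b) (lam : ℕ → k)
    (hlam : ∀ l : Pr m, ∃ a : O, algebraMap O k a = lam l ∧
      (MvPolynomial.X l - MvPolynomial.C a : TPoly m O) ∈ P)
    (G2 : Supply m q p lam)
    (x : (Stg.gamma0 n hn hM).H rho × (Stg.gamma0 n hn hM).H rho)
    (hx : ∃ z, (degData rho hq h hqM hn hnq hM hs).up x = (MvPolynomial.C π : TPoly m O) • z)
    (hP : ∀ b ∈ P, ∃ y, b • x = (MvPolynomial.C π : TPoly m O) • y) :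
    ∃ y, x = (MvPolynomial.C π : TPoly m O) • y := by
  have hπ : algebraMap O k π = 0 := (hker π).mpr ⟨1, (mul_one π).symm⟩
  have hk2 : (2 : k) ≠ 0 := by
    intro h2
    have hch : CharP k p := (CharP.charP_iff_prime_eq_zero hp).mpr hk
    have h3 : ((2 : ℕ) : k) = 0 := by exact_mod_cast h2
    rw [CharP.cast_eq_zero_iff k p] at h3
    exact hp2 ((Nat.prime_dvd_prime_iff_eq hp Nat.prime_two).mp h3)
  have hqN : ¬ q ∣ n := (Nat.Prime.coprime_iff_not_dvd hq).mp h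
  have hmem : ∀ ℓ, (ℓ.Prime ∧ ¬ ℓ ∣ m ∧ (ℓ : k) ≠ 0) → ¬ ℓ ∣ n * q := fun ℓ hℓ hd =>
    hℓ.2.1 (hd.trans hnq)
  have heig : ∀ y : (Stg.gamma0 n hn hM).H rho,
      (∀ b ∈ P, ∃ z : (Stg.gamma0 n hn hM).H rho, b • y = (MvPolynomial.C π : TPoly m O) • z) →
      ∀ (ℓ : ℕ) (hℓ : ℓ.Prime) (hℓN : ¬ ℓ ∣ n), (ℓ.Prime ∧ ¬ ℓ ∣ m ∧ (ℓ : k) ≠ 0) →
      (dataT hℓ hℓN).hom k (red hrho hn hM k y) = lam ℓ • red hrho hn hM k y := by
    intro y hy ℓ hℓ hℓN hg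
    obtain ⟨a, ha1, ha2⟩ := hlam ⟨ℓ, hℓ, hg.2.1⟩
    exact red_eigen hrho hn hM y π hπ ⟨ℓ, hℓ, hg.2.1⟩ a ha1 (hy _ ha2) hℓN
  obtain ⟨z, hz⟩ := hx
  obtain ⟨h1, h2⟩ := ihara_hom (p := p) hk hk2 hn0 hq hqN (wA hq h) (red hrho hn hM k x.2)
    (red hrho hn hM k x.1) lam (fun ℓ => ℓ.Prime ∧ ¬ ℓ ∣ m ∧ (ℓ : k) ≠ 0)
    (fun ℓ hℓ => ⟨hmem ℓ hℓ, hℓ.2.2⟩)
    (heig x.2 fun b hb => by
      obtain ⟨y, hy⟩ := hP b hb
      exact ⟨y.2, congrArg Prod.snd hy⟩)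
    (heig x.1 fun b hb => by
      obtain ⟨y, hy⟩ := hP b hb
      exact ⟨y.1, congrArg Prod.fst hy⟩) (fun γ γ' hγ hγ' hrel => by
    have h3 := tH_up hrho hq h hqM hn hnq hM hs x hγ hγ' hrel
    rw [hz, Stg.C_smul, map_smul] at h3
    have h4 := congrArg (algebraMap O k) h3
    change algebraMap O k (π * _) = _ at h4
    rw [map_mul, hπ, zero_mul, map_add] at h4
    rw [add_comm]
    exact h4.symm) (Supply.good hp hk G2)
  obtain ⟨y1, hy1⟩ := exists_smul_of_red hrho hn hM π hπ0 (fun a => (hker a).mp) x.1 h2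
  obtain ⟨y2, hy2⟩ := exists_smul_of_red hrho hn hM π hπ0 (fun a => (hker a).mp) x.2 h1
  refine ⟨(y1, y2), Prod.ext ?_ ?_⟩
  · change x.1 = (MvPolynomial.C π : TPoly m O) • y1
    rw [Stg.C_smul, hy1]
  · change x.2 = (MvPolynomial.C π : TPoly m O) • y2
    rw [Stg.C_smul, hy2]

variable [P.IsPrime]

include hrho in
/-- **Ihara's lemma modulo `π`**: the localised degeneracy map is injective modulo `π`. -/
theorem ihara_up (hsurj : Function.Surjective (algebraMap O k)) {p : ℕ} (hp : p.Prime)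
    (hp2 : p ≠ 2) (hk : (p : k) = 0) (hn0 : 0 < n) (π : O)
    (hπ0 : π ≠ 0) (hker : ∀ a : O, algebraMap O k a = 0 ↔ ∃ b, a = π * b) (lam : ℕ → k)
    (hlam : ∀ l : Pr m, ∃ a : O, algebraMap O k a = lam l ∧
      (MvPolynomial.X l - MvPolynomial.C a : TPoly m O) ∈ P)
    (G2 : Supply m q p lam)
    (x : Loc P ((Stg.gamma0 n hn hM).H rho) × Loc P ((Stg.gamma0 n hn hM).H rho))
    (hx : ∃ z, ((degData rho hq h hqM hn hnq hM hs).loc P).up x =
      (MvPolynomial.C π : TPoly m O) • z) :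
    ∃ y, x = (MvPolynomial.C π : TPoly m O) • y := by
  have hfin := finite_H hrho hn hM hn0
  set S := LinearMap.range (LinearMap.lsmul (TPoly m O)
    ((Stg.gamma0 n hn hM).H rho × (Stg.gamma0 n hn hM).H rho) (MvPolynomial.C π)) with hS
  have hQ : ∀ a : O, algebraMap O k a = 0 →
      ∀ y : ((Stg.gamma0 n hn hM).H rho × (Stg.gamma0 n hn hM).H rho) ⧸ S, a • y = 0 := by
    intro a ha y
    obtain ⟨b, rfl⟩ := (hker a).mp ha
    obtain ⟨y, rfl⟩ := S.mkQ_surjective y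
    rw [← algebraMap_smul (TPoly m O) (π * b) (S.mkQ y), ← map_smul, Submodule.mkQ_apply,
      Submodule.Quotient.mk_eq_zero]
    refine ⟨(MvPolynomial.C b : TPoly m O) • y, ?_⟩
    change (MvPolynomial.C π : TPoly m O) • (MvPolynomial.C b : TPoly m O) • y =
      (MvPolynomial.C (π * b) : TPoly m O) • y
    rw [smul_smul, map_mul]
  have hfinQ : Module.Finite O
      (((Stg.gamma0 n hn hM).H rho × (Stg.gamma0 n hn hM).H rho) ⧸ S) :=
    Module.Finite.of_surjective (S.mkQ.restrictScalars O) S.mkQ_surjective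
  have hart : IsArtinian O
      (((Stg.gamma0 n hn hM).H rho × (Stg.gamma0 n hn hM).H rho) ⧸ S) := artin_of hsurj hQ
  have hart2 : IsArtinian (TPoly m O)
      (((Stg.gamma0 n hn hM).H rho × (Stg.gamma0 n hn hM).H rho) ⧸ S) :=
    isArtinian_of_tower O hart
  have hnoe : IsNoetherian (TPoly m O)
      (((Stg.gamma0 n hn hM).H rho × (Stg.gamma0 n hn hM).H rho) ⧸ S) :=
    isNoetherian_of_tower O inferInstance
  exact loc_up_of (degData rho hq h hqM hn hnq hM hs) P (MvPolynomial.C π) (fun x hx hP =>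
    key hrho hq h hqM hn hnq hM hs P hp hp2 hk hn0 π hπ0 hker lam hlam G2 x hx hP) x hx

include hrho in
/-- **Ihara's lemma, dual form**: the localised degeneracy map is surjective. -/
theorem ihara_down (hsurj : Function.Surjective (algebraMap O k)) {p : ℕ} (hp : p.Prime)
    (hp2 : p ≠ 2) (hk : (p : k) = 0) (hn0 : 0 < n)
    (hPk : ∀ a : O, algebraMap O k a = 0 → (MvPolynomial.C a : TPoly m O) ∈ P) (lam : ℕ → k)
    (hlam : ∀ l : Pr m, ∃ a : O, algebraMap O k a = lam l ∧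
      (MvPolynomial.X l - MvPolynomial.C a : TPoly m O) ∈ P)
    (G2 : Supply m q p lam) :
    Function.Surjective ((degData rho hq h hqM hn hnq hM hs).loc P).down := by
  have hfin := finite_H hrho hn hM hn0
  have hfinB : Module.Finite (TPoly m O)
      ((Stg.gamma0 n hn hM).H rho × (Stg.gamma0 n hn hM).H rho) :=
    Module.Finite.of_restrictScalars_finite O _ _
  have hqN : ¬ q ∣ n := (Nat.Prime.coprime_iff_not_dvd hq).mp h
  refine loc_down_surjective _ P (sup_eq_top_of _ P hsurj hPk fun f hf hfP => ?_)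
  -- the two components
  obtain ⟨f1, hf1⟩ : ∃ f1 : (Additive (Gamma0 n) →+ O) →ₗ[O] k,
      ∀ D, f1 D = f (oH hrho hn hM D, 0) :=
    ⟨f ∘ₗ LinearMap.inl O _ _ ∘ₗ oH hrho hn hM, fun _ => rfl⟩
  obtain ⟨f2, hf2⟩ : ∃ f2 : (Additive (Gamma0 n) →+ O) →ₗ[O] k,
      ∀ D, f2 D = f (0, oH hrho hn hM D) :=
    ⟨f ∘ₗ LinearMap.inr O _ _ ∘ₗ oH hrho hn hM, fun _ => rfl⟩
  have hTf : ∀ (l : Pr m) (a : O), algebraMap O k a = lam l →
      (MvPolynomial.X l - MvPolynomial.C a : TPoly m O) ∈ P →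
      ∀ x : (Stg.gamma0 n hn hM).H rho × (Stg.gamma0 n hn hM).H rho,
        f ((MvPolynomial.X l : TPoly m O) • x) = lam l * f x := by
    intro l a ha haP x
    have h1 := hfP _ haP x
    rw [sub_smul, map_sub, sub_eq_zero] at h1
    rw [h1, ← ha, ← smul_eq_mul, algebraMap_smul, ← map_smul]
    congr 1
    exact Prod.ext (Stg.C_smul _ _ a x.1) (Stg.C_smul _ _ a x.2)
  have hT1 : ∀ (ℓ : ℕ) (hℓ : ℓ.Prime) (hℓN : ¬ ℓ ∣ n), ¬ ℓ ∣ m → ∀ D,
      f1 ((dataT hℓ hℓN).hom O D) = lam ℓ * f1 D := by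
    intro ℓ hℓ hℓN hℓm D
    obtain ⟨a, ha1, ha2⟩ := hlam ⟨ℓ, hℓ, hℓm⟩
    rw [hf1, hf1, ← hTf ⟨ℓ, hℓ, hℓm⟩ a ha1 ha2]
    congr 1
    refine Prod.ext ?_ (smul_zero _).symm
    change _ = (MvPolynomial.X (⟨ℓ, hℓ, hℓm⟩ : Pr m) : TPoly m O) • oH hrho hn hM D
    rw [Stg.X_smul]
    exact oH_T hrho hn hM ⟨ℓ, hℓ, hℓm⟩ hℓN D
  have hT2 : ∀ (ℓ : ℕ) (hℓ : ℓ.Prime) (hℓN : ¬ ℓ ∣ n), ¬ ℓ ∣ m → ∀ D,
      f2 ((dataT hℓ hℓN).hom O D) = lam ℓ * f2 D := by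
    intro ℓ hℓ hℓN hℓm D
    obtain ⟨a, ha1, ha2⟩ := hlam ⟨ℓ, hℓ, hℓm⟩
    rw [hf2, hf2, ← hTf ⟨ℓ, hℓ, hℓm⟩ a ha1 ha2]
    congr 1
    refine Prod.ext (smul_zero _).symm ?_
    change _ = (MvPolynomial.X (⟨ℓ, hℓ, hℓm⟩ : Pr m) : TPoly m O) • oH hrho hn hM D
    rw [Stg.X_smul]
    exact oH_T hrho hn hM ⟨ℓ, hℓ, hℓm⟩ hℓN D
  -- the modular symbols
  let μ : ((Additive (Gamma0 n) →+ O) →ₗ[O] k) → (LL (Gamma0 n) →+ k) := fun g =>
    { toFun := fun d => g (pdHom O d)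
      map_zero' := by
        have h0 : pdHom O (0 : LL (Gamma0 n)) = 0 := by
          refine AddMonoidHom.ext fun γ => ?_
          change ((pd (Additive.toMul γ) (0 : LL (Gamma0 n)) : ℤ) : O) = 0
          rw [map_zero, Int.cast_zero]
        rw [h0, map_zero]
      map_add' := fun d d' => by
        have h0 : pdHom O (d + d') = pdHom O d + pdHom O d' := by
          refine AddMonoidHom.ext fun γ => ?_
          change ((pd (Additive.toMul γ) (d + d') : ℤ) : O) = (pd _ d : ℤ) + (pd _ d' : ℤ)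
          rw [map_add, Int.cast_add]
        rw [h0, map_add] }
  have hμ : ∀ g d, μ g d = g (pdHom O d) := fun _ _ => rfl
  have hrel : (hat (μ f1)).1 = - Vo q (hat (μ f2)).1 := by
    rw [← (wA hq h).slash_old (hat (μ f2)).2, eq_neg_iff_add_eq_zero]
    funext u v
    change (hat (μ f1)).1 u v + (hat (μ f2)).1 ((wA hq h).mat • u) ((wA hq h).mat • v) = 0
    rw [hat_apply, hat_apply, hμ, hμ, hf1, hf2, ← map_add]
    have h1 := hf (oH hrho hnq hM (pdHom O ⟨ev _ u v, ev_mem u v⟩))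
    rw [down_pdHom hrho hq h hqM hn hnq hM hs] at h1
    rw [← h1]
    congr 1
    have e1 : ALD.rL n q ⟨ev (Gamma0 (n * q)) u v, ev_mem u v⟩ = ⟨ev (Gamma0 n) u v, ev_mem u v⟩ := by
      apply Subtype.ext
      refine LinearMap.ext fun φ => ?_
      rfl
    have e2 : ALD.rL n q ((wA hq h).wL ⟨ev (Gamma0 (n * q)) u v, ev_mem u v⟩) =
        ⟨ev (Gamma0 n) ((wA hq h).mat • u) ((wA hq h).mat • v), ev_mem _ _⟩ := by
      apply Subtype.ext
      refine LinearMap.ext fun φ => ?_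
      rfl
    rw [e1, e2]
    exact Prod.ext (add_zero _) (zero_add _)
  have heig : ∀ (g : (Additive (Gamma0 n) →+ O) →ₗ[O] k), (∀ (ℓ : ℕ) (hℓ : ℓ.Prime)
      (hℓN : ¬ ℓ ∣ n), ¬ ℓ ∣ m → ∀ D, g ((dataT hℓ hℓN).hom O D) = lam ℓ * g D) →
      ∀ (ℓ : ℕ), ℓ.Prime → ¬ ℓ ∣ m → To ℓ (hat (μ g)).1 = lam ℓ • (hat (μ g)).1 := by
    intro g hg ℓ hℓ hℓm
    have hℓN : ¬ ℓ ∣ n := fun hd => hℓm (hd.trans hn)
    funext u v
    rw [← hat_TL hℓ hℓN, hμ, ← pdHom_TL, hg ℓ hℓ hℓN hℓm]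
    rfl
  have hX1 : (hat (μ f1)).1 = 0 := ihara hk hq hqN (hat (μ f1)).2 (hat (μ f2)).2 hrel lam
    (fun ℓ => ℓ.Prime ∧ ¬ ℓ ∣ m ∧ (ℓ : k) ≠ 0)
    (fun ℓ hℓ heq => hℓ.2.1 (heq ▸ (Dvd.intro_left _ rfl : q ∣ n * q).trans hnq))
    (fun ℓ hℓ hg => heig f1 hT1 ℓ hℓ hg.2.1) (Supply.good hp hk G2)
  have hX2 : (hat (μ f2)).1 = 0 := by
    apply eq_zero_of_Vo hq.ne_zero (hat (μ f2)).2.1
    rw [hX1, eq_comm, neg_eq_zero] at hrel
    exact hrel
  obtain ⟨ℓ₀, hℓ₀, hℓ₀m, hd₀, -, hlam₀⟩ := G2 n 1 hn0 one_pos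
  have hℓ₀N : ¬ ℓ₀ ∣ n := fun hd => hℓ₀m (hd.trans hn)
  have hd1 : (n : ℤ) ∣ (ℓ₀ : ℤ) - 1 := by
    have : ((ℓ₀ - 1 : ℕ) : ℤ) = (ℓ₀ : ℤ) - 1 := by
      have := hℓ₀.pos
      omega
    rw [← this]
    exact_mod_cast hd₀
  have hz1 : f1 = 0 := eq_zero_of_pdHom hp hp2 hk hn0 hℓ₀ hℓ₀N hd1 hlam₀ f1
    (hT1 ℓ₀ hℓ₀ hℓ₀N hℓ₀m) (fun d => DFunLike.congr_fun (hat_eq_zero hX1) d)
  have hz2 : f2 = 0 := eq_zero_of_pdHom hp hp2 hk hn0 hℓ₀ hℓ₀N hd1 hlam₀ f2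
    (hT2 ℓ₀ hℓ₀ hℓ₀N hℓ₀m) (fun d => DFunLike.congr_fun (hat_eq_zero hX2) d)
  refine LinearMap.ext fun x => ?_
  have h1 : x = (oH hrho hn hM (tH hrho hn hM x.1), 0) + (0, oH hrho hn hM (tH hrho hn hM x.2)) := by
    rw [oH_tH, oH_tH]
    exact Prod.ext (add_zero _).symm (zero_add _).symm
  rw [h1, map_add, ← hf1, ← hf2, hz1, hz2]
  exact add_zero _

end

end

end Fermat.Agent.IharaM
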