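import Fermat.Agent.LevelRaise.Core

/-!
# The trace on homomorphisms and the pairing
-/

set_option autoImplicit false
set_option linter.unusedSectionVars false

namespace Fermat.Agent.IharaM

open Matrix CongruenceSubgroup
open scoped MatrixGroups
open Fermat.Agent.LR

noncomputable section

/-- **The transfer formula for `PD`.** -/
theorem PD_res {Γ Γ' : Subgroup SL(2, ℤ)} {X : Type*} [Fintype X]
    {r : X → IM} (hr : IsReps Γ' (GG Γ) r) {γ : SL(2, ℤ)} (π : Equiv.Perm X) (c : X → SL(2, ℤ))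
    (hc : ∀ x, c x ∈ Γ') (hspec : ∀ x, r x * ofSL γ = ofSL (c x) * r (π x)) (u v : Vec) :
    ∑ x, PD Γ' (c x) u v = PD Γ γ u v := by
  have hrdet : ∀ x, (r x).1.det = 1 := fun x => GG_det _ (hr.mem' x)
  have hrpos : ∀ x, 0 < (r x).1.det := fun x => by rw [hrdet]; exact one_pos
  have hGG := GG_det (Γ := Γ')
  have hadj : ∀ α ∈ GG Γ, adj α ∈ GG Γ := by
    rintro _ ⟨g, hg, rfl⟩
    exact ⟨g⁻¹, Γ.inv_mem hg, (adj_ofSL g).symm⟩
  -- telescoping
  have hT : ∑ x, II (GG Γ') (r x) (r (π x)) u v = 0 := by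
    have h1 : ∀ x, II (GG Γ') (r x) (r (π x)) u v =
        II (GG Γ') 1 (r (π x)) u v - II (GG Γ') 1 (r x) u v := by
      intro x
      have := II_add hGG one_det_pos (hrpos x) (hrpos (π x)) u v
      linarith
    rw [Finset.sum_congr rfl fun x _ => h1 x, Finset.sum_sub_distrib,
      Equiv.sum_comp π (fun x => II (GG Γ') 1 (r x) u v), sub_self]
  have hL : ∑ x, PD Γ' (c x) u v = ∑ x, II (GG Γ') (r x) (r x * ofSL γ) u v := by
    rw [← add_zero (∑ x, PD Γ' (c x) u v), ← hT, ← Finset.sum_add_distrib]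
    refine Finset.sum_congr rfl fun x _ => ?_
    rw [hspec x, ← PD_base (hc x) (hrpos x), ← II_GG_left (hc x) (r x) (r (π x))]
    refine II_add hGG (hrpos x) ?_ ?_ u v
    · rw [mul_det, ofSL_det, one_mul]; exact hrpos x
    · rw [mul_det, ofSL_det, one_mul]; exact hrpos _
  rw [hL]
  have h2 : ∀ x, II (GG Γ') (r x) (r x * ofSL γ) u v =
      II ((fun β => adj (r x) * β) '' GG Γ') 1 (ofSL γ) u v := by
    intro x
    rw [← II_left (GG Γ') (r x) (r x * ofSL γ) (adj (r x)), ← mul_assoc, adj_mul_self,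
      ← II_scal_scal ((fun β => adj (r x) * β) '' GG Γ') 1 (ofSL γ) _ (IM_det_ne (r x)), mul_one]
  rw [Finset.sum_congr rfl fun x _ => h2 x]
  have h3 : GG Γ = ⋃ x, ((fun β => adj (r x) * β) '' GG Γ') := by
    ext α
    rw [Set.mem_iUnion]
    constructor
    · intro hα
      obtain ⟨x, γ', hγ', h4⟩ := hr.ex _ (hadj α hα)
      refine ⟨x, ofSL γ'⁻¹, ⟨γ'⁻¹, Γ'.inv_mem hγ', rfl⟩, ?_⟩
      change adj (r x) * ofSL γ'⁻¹ = α
      rw [← adj_adj α, h4, adj_ofSL_mul]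
    · rintro ⟨x, _, ⟨γ', hγ', rfl⟩, rfl⟩
      have h5 := hadj _ (hr.mem γ'⁻¹ (Γ'.inv_mem hγ') x)
      rwa [adj_ofSL_mul, inv_inv] at h5
  have h4 : Pairwise (Function.onFun Disjoint fun x => (fun β => adj (r x) * β) '' GG Γ') := by
    intro x y hxy
    rw [Function.onFun, Set.disjoint_left]
    rintro _ ⟨_, ⟨γ₁, hγ₁, rfl⟩, rfl⟩ ⟨_, ⟨γ₂, hγ₂, rfl⟩, h⟩
    apply hxy
    apply hr.uniq x y (γ₁ * γ₂⁻¹) (Γ'.mul_mem hγ₁ (Γ'.inv_mem hγ₂))
    change adj (r y) * ofSL γ₂ = adj (r x) * ofSL γ₁ at h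
    have h5 := congrArg adj h
    rw [adj_mul, adj_mul, adj_adj, adj_adj, adj_ofSL, adj_ofSL] at h5
    rw [map_mul, mul_assoc, h5, ← mul_assoc, ← map_mul, mul_inv_cancel, map_one, one_mul]
  unfold PD
  conv_rhs => rw [h3]
  rw [II_iUnion (δ := 1) _ h4 one_det_pos (ofSL_det_pos γ)]
  intro x β hβ
  apply GG_det (Γ := Γ)
  rw [h3, Set.mem_iUnion]
  exact ⟨x, hβ⟩

/-- **The trace of `pd`.** -/
theorem pd_rL {N q : ℕ} {X : Type*} [Fintype X] {r : X → IM}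
    (hr : IsReps (Gamma0 (N * q)) (GG (Gamma0 N)) r) {γ : Gamma0 N} (π : Equiv.Perm X)
    (c : X → Gamma0 (N * q))
    (hspec : ∀ x, r x * ofSL (γ : SL(2, ℤ)) = ofSL (c x : SL(2, ℤ)) * r (π x))
    (z : LL (Gamma0 (N * q))) :
    ∑ x, pd (c x) z = pd γ (ALD.rL N q z) := by
  have h1 := pd_spec γ (ALD.rL N q z)
  have h2 : (ALD.rL N q z).1 (PDC (Gamma0 N) γ.1 γ.2) =
      z.1 (resM N q (PDC (Gamma0 N) γ.1 γ.2)) := rfl
  have h3 : resM N q (PDC (Gamma0 N) γ.1 γ.2) =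
      ∑ x, PDC (Gamma0 (N * q)) (c x).1 (c x).2 := by
    apply Subtype.ext
    funext u v
    rw [AddSubmonoidClass.coe_finsetSum, Finset.sum_apply, Finset.sum_apply]
    have h4 := PD_res hr π (fun x => (c x : SL(2, ℤ))) (fun x => (c x).2) hspec u v
    have h5 : (((PD (Gamma0 N) γ.1 u v) : ℤ) : ℂ) =
      ((∑ x, PD (Gamma0 (N * q)) (c x).1 u v : ℤ) : ℂ) := by
      exact_mod_cast h4.symm
    push_cast at h5
    exact h5
  rw [h2, h3, map_sum, Finset.sum_congr rfl fun x _ => pd_spec (c x) z] at h1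
  exact_mod_cast h1

end

end Fermat.Agent.IharaM
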