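import Fermat.Agent.IharaM.Alg
import Fermat.Agent.IharaM.MSInt
import Fermat.Agent.LevelRaise.Main

/-!
# Functionals on `Hom(Γ₀(N), O)` killing the image of the duality map
-/

set_option autoImplicit false
set_option linter.unusedSectionVars false

namespace Fermat.Agent.IharaM

open Matrix CongruenceSubgroup
open scoped MatrixGroups
open Fermat.Agent.LR
open Fermat.Agent.HeckeHom ModularCurve.Period

noncomputable section

/-! ### parabolic homomorphisms -/

theorem exists_sq_unipotent {γ : SL(2, ℤ)} {u : Vec} (hu : dt (γ • u) u = 0) :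
    ∃ (g : SL(2, ℤ)) (t : ℤ), γ * γ = g * T1 t * g⁻¹ := by
  obtain ⟨g, m, hm, hg⟩ := exists_primitive u
  have hu1 : dt u (g • e1) = 0 := by
    apply dt_of_val (m := m)
    rw [hg, sl_smul_e1]
  obtain ⟨h, hh⟩ : ∃ h : SL(2, ℤ), h = g⁻¹ * γ * g := ⟨_, rfl⟩
  have h1 : dt (h • e1) e1 = 0 := by
    rw [hh, mul_smul, mul_smul, ← dt_sl_smul g, smul_inv_smul]
    refine dt_trans (v := γ • u) ?_ (dt_trans hu hu1)
    rw [dt_sl_smul]; exact dt_eq_zero_symm hu1
  have h10 : h.1 1 0 = 0 := by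
    simp only [dt, det2, sl_smul_e1, e1_val] at h1
    linarith
  have hdet := sl_det_eq h
  rw [h10, mul_zero, sub_zero] at hdet
  have hsq : ∃ t : ℤ, h * h = T1 t := by
    refine ⟨h.1 0 0 * h.1 0 1 + h.1 0 1 * h.1 1 1, ?_⟩
    have hs : (h.1 0 0 = 1 ∧ h.1 1 1 = 1) ∨ (h.1 0 0 = -1 ∧ h.1 1 1 = -1) :=
      Int.mul_eq_one_iff_eq_one_or_neg_one.mp hdet
    apply Subtype.ext
    ext i j
    rw [sl_mul_apply]
    fin_cases i <;> fin_cases j
    · change h.1 0 0 * h.1 0 0 + h.1 0 1 * h.1 1 0 = 1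
      rw [h10]
      rcases hs with ⟨a, b⟩ | ⟨a, b⟩ <;> rw [a] <;> ring
    · rfl
    · change h.1 1 0 * h.1 0 0 + h.1 1 1 * h.1 1 0 = 0
      rw [h10]
      ring
    · change h.1 1 0 * h.1 0 1 + h.1 1 1 * h.1 1 1 = 1
      rw [h10]
      rcases hs with ⟨a, b⟩ | ⟨a, b⟩ <;> rw [b] <;> ring
  obtain ⟨t, ht⟩ := hsq
  refine ⟨g, t, ?_⟩
  rw [← ht, hh]
  group

variable {O : Type*} [CommRing O] [IsDomain O] [CharZero O]

theorem eisenstein_parabolic {N ℓ : ℕ} (hN : 0 < N) (hℓ : ℓ.Prime) (hℓN' : ¬ ℓ ∣ N)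
    (hℓN : (N : ℤ) ∣ (ℓ : ℤ) - 1) (D : Additive (Gamma0 N) →+ O) (γ : Gamma0 N) (u : Vec)
    (hu : dt ((γ : SL(2, ℤ)) • u) u = 0) :
    (dataT hℓ hℓN').hom O D (Additive.ofMul γ) = (1 + (ℓ : O)) * D (Additive.ofMul γ) := by
  obtain ⟨g, t, hgt⟩ := exists_sq_unipotent hu
  have hmem : g * T1 t * g⁻¹ ∈ Gamma0 N := by rw [← hgt]; exact (γ * γ).2
  let K := FractionRing O
  let f : O →+ K := (algebraMap O K : O →+* K)
  have hK : CharZero K := by
    exact charZero_of_injective_algebraMap (IsFractionRing.injective O K)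
  have h2 := hom_unipotent (k := K) hN hℓ hℓN' hℓN (by exact_mod_cast hℓ.ne_zero) (f.comp D) g t hmem
  rw [HData.hom_comp] at h2
  have h3 : (⟨g * T1 t * g⁻¹, hmem⟩ : Gamma0 N) = γ * γ := Subtype.ext hgt.symm
  have e1 : ∀ E : Additive (Gamma0 N) →+ O, E (Additive.ofMul (γ * γ)) =
      2 * E (Additive.ofMul γ) := fun E => by rw [ofMul_mul, map_add, two_mul]
  rw [h3, AddMonoidHom.comp_apply, AddMonoidHom.comp_apply, e1, e1] at h2
  have h2' : algebraMap O K (2 * (dataT hℓ hℓN').hom O D (Additive.ofMul γ)) = (1 + (ℓ : K)) *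
      algebraMap O K (2 * D (Additive.ofMul γ)) := h2
  have h4 : algebraMap O K (2 * ((dataT hℓ hℓN').hom O D (Additive.ofMul γ))) =
      algebraMap O K (2 * ((1 + (ℓ : O)) * D (Additive.ofMul γ))) := by
    rw [h2']
    simp only [map_mul, map_add, map_one, map_natCast]
    ring
  exact mul_left_cancel₀ two_ne_zero (IsFractionRing.injective O K h4)

/-- the Eisenstein defect lifts to modular symbols -/
theorem exists_th_eq {N ℓ : ℕ} (hN : 0 < N) (hℓ : ℓ.Prime) (hℓN' : ¬ ℓ ∣ N)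
    (hℓN : (N : ℤ) ∣ (ℓ : ℤ) - 1) (D : Additive (Gamma0 N) →+ O) :
    ∃ x : LL (Gamma0 N) →+ O, th (hat x) = (dataT hℓ hℓN').hom O D - (1 + (ℓ : O)) • D := by
  have := finite_quot hN
  obtain ⟨φ, hφ⟩ := exists_lift ((dataT hℓ hℓN').hom O D - (1 + (ℓ : O)) • D) (by
    intro γ u hu
    change (dataT hℓ hℓN').hom O D (Additive.ofMul γ) - (1 + (ℓ : O)) * D (Additive.ofMul γ) = 0
    rw [eisenstein_parabolic hN hℓ hℓN' hℓN D γ u hu, sub_self])
  obtain ⟨x, hx⟩ := exists_hat φ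
  exact ⟨x, by rw [hx, hφ]⟩

/-! ### independence modulo `p` -/

theorem dvd_of_pd {N p : ℕ} (hN : 0 < N) (hp : p.Prime) (hp2 : p ≠ 2) (d : LL (Gamma0 N))
    (hd : ∀ γ : Gamma0 N, (p : ℤ) ∣ pd γ d) : ∃ e, d = (p : ℤ) • e := by
  have := finite_quot hN
  obtain ⟨d', hd', h3⟩ := exists_smul_of_PD hp hp2 d.2 (by
    intro γ hγ
    obtain ⟨n, hn⟩ := hd ⟨γ, hγ⟩
    refine ⟨n, ?_⟩
    rw [pd_spec ⟨γ, hγ⟩ d, hn]
    push_cast
    rfl)
  exact ⟨⟨d', hd'⟩, Subtype.ext h3⟩

theorem pd_independent {N p : ℕ} (hN : 0 < N) (hp : p.Prime) (hp2 : p ≠ 2) {k : Type*} [Field k]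
    (hk : (p : k) = 0) {ι : Type*} [Fintype ι] (b : Module.Basis ι ℤ (LL (Gamma0 N))) (c : ι → k)
    (hc : ∀ γ : Gamma0 N, ∑ i, c i * ((pd γ (b i) : ℤ) : k) = 0) : c = 0 := by
  have hpF : Fact p.Prime := ⟨hp⟩
  classical
  have hchar : CharP k p := (CharP.charP_iff_prime_eq_zero hp).mpr hk
  let _ : Algebra (ZMod p) k := ZMod.algebra k p
  funext i
  rw [Pi.zero_apply, ← Module.forall_dual_apply_eq_zero_iff (ZMod p)]
  intro g
  -- the lattice element
  obtain ⟨e, he⟩ := dvd_of_pd hN hp hp2 (∑ j, (((g (c j)).val : ℕ) : ℤ) • b j) (by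
    intro γ
    rw [map_sum, ← ZMod.intCast_zmod_eq_zero_iff_dvd, Int.cast_sum]
    have h1 := congrArg g (hc γ)
    rw [map_zero, map_sum] at h1
    rw [← h1]
    refine Finset.sum_congr rfl fun j _ => ?_
    rw [map_zsmul, smul_eq_mul]
    push_cast
    rw [ZMod.natCast_zmod_val]
    have h2 : c j * ((pd γ (b j) : ℤ) : k) = ((pd γ (b j) : ℤ) : ZMod p) • c j := by
      rw [Algebra.smul_def, map_intCast, mul_comm]
    rw [h2, map_smul, smul_eq_mul, mul_comm])
  have h1 := congrArg (fun d => b.repr d i) he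
  simp only [map_sum, map_smul, Finsupp.coe_finsetSum, Finset.sum_apply, Finsupp.smul_apply,
    Module.Basis.repr_self, Finsupp.single_apply, smul_eq_mul, mul_ite, mul_one, mul_zero,
    Finset.sum_ite_eq', Finset.mem_univ, if_true] at h1
  have h2 := congrArg (Int.cast : ℤ → ZMod p) h1
  push_cast at h2
  rw [ZMod.natCast_zmod_val, ZMod.natCast_self, zero_mul] at h2
  exact h2

/-! ### finiteness -/

theorem finite_hom (G : Type*) [Group G] [hG : Group.FG G] (O : Type*) [CommRing O]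
    [IsNoetherianRing O] : Module.Finite O (Additive G →+ O) := by
  obtain ⟨s, hs⟩ := Group.fg_def.mp hG
  let ev : (Additive G →+ O) →ₗ[O] (s → O) :=
    { toFun := fun D i => D (Additive.ofMul i.1)
      map_add' := fun _ _ => rfl
      map_smul' := fun _ _ => rfl }
  refine Module.Finite.of_injective ev ?_
  rw [← LinearMap.ker_eq_bot, LinearMap.ker_eq_bot']
  intro D hD
  refine AddMonoidHom.ext fun g => ?_
  have hg : Additive.toMul g ∈ Subgroup.closure (s : Set G) := by rw [hs]; exact Subgroup.mem_top _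
  change D (Additive.ofMul (Additive.toMul g)) = 0
  refine Subgroup.closure_induction (p := fun x _ => D (Additive.ofMul x) = 0) ?_ ?_ ?_ ?_ hg
  · intro x hx
    exact congrFun hD ⟨x, hx⟩
  · rw [ofMul_one, map_zero]
  · intro x y _ _ hx hy
    rw [ofMul_mul, map_add, hx, hy, add_zero]
  · intro x _ hx
    rw [ofMul_inv, map_neg, hx, neg_zero]

theorem finite_functionals (O k N : Type*) [CommRing O] [Field k] [Algebra O k] [AddCommGroup N]
    [Module O N] [Module.Finite O N] : Module.Finite k (N →ₗ[O] k) := by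
  obtain ⟨n, w, hw⟩ := Module.Finite.exists_fin (R := O) (M := N)
  let ev : (N →ₗ[O] k) →ₗ[k] (Fin n → k) :=
    { toFun := fun f i => f (w i)
      map_add' := fun _ _ => rfl
      map_smul' := fun _ _ => rfl }
  refine Module.Finite.of_injective ev fun f g hfg => ?_
  exact LinearMap.ext_on_range hw fun i => congrFun hfg i

/-! ### the main statement -/

variable {k : Type*} [Field k] [Algebra O k]

/-- `th ∘ hat` as a linear map in the functional -/
theorem th_hat_sum {N : ℕ} {ι : Type*} [Fintype ι] (b : Module.Basis ι ℤ (LL (Gamma0 N)))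
    (x : LL (Gamma0 N) →+ O) :
    th (hat x) = ∑ i, x (b i) • th (hat ((Int.castAddHom O).comp (b.coord i).toAddMonoidHom)) := by
  have h1 : x = ∑ i, x (b i) • ((Int.castAddHom O).comp (b.coord i).toAddMonoidHom) := by
    refine AddMonoidHom.ext fun d => ?_
    rw [AddMonoidHom.finsetSum_apply]
    conv_lhs => rw [← b.sum_repr d]
    rw [map_sum]
    refine Finset.sum_congr rfl fun i _ => ?_
    rw [map_zsmul, zsmul_eq_mul, mul_comm]
    rfl
  refine AddMonoidHom.ext fun γ => ?_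
  conv_lhs => rw [h1]
  rw [AddMonoidHom.finsetSum_apply]
  change (∑ i, x (b i) • ((Int.castAddHom O).comp (b.coord i).toAddMonoidHom)) _ = _
  rw [AddMonoidHom.finsetSum_apply]
  rfl

theorem hat_comp_TL {N ℓ : ℕ} (hℓ : ℓ.Prime) (hℓN : ¬ ℓ ∣ N) (x : LL (Gamma0 N) →+ O) :
    hat (x.comp (TL hℓ hℓN).toAddMonoidHom) = ToM hℓ hℓN (hat x) := by
  apply Subtype.ext
  funext u v
  exact hat_TL hℓ hℓN x u v

end

end Fermat.Agent.IharaM
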